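import Fermat.Agent.S22.SepPeriod

/-!
# S22: Hecke operators and cusp values

For an upper triangular integral matrix `α` of positive determinant and `g ∈ SL(2,ℤ)` write
`α g = g' u` with `g' ∈ SL(2,ℤ)` and `u` upper triangular integral. Then
`cval (f ∣ α) g (X, Y) = cval f g' (α ⋆ (X, Y))`.
-/

set_option autoImplicit false

noncomputable section

namespace Fermat.Agent.S22.Sep

open Complex Filter Function UpperHalfPlane Matrix.SpecialLinearGroup ModularForm
open scoped Topology Real ModularForm MatrixGroups Pointwise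

/-- The upper triangular matrix `[a, b; 0, d]` with integer entries, `a, d > 0`. -/
def upInt (a b d : ℤ) (ha : 0 < a) (hd : 0 < d) : GL (Fin 2) ℝ :=
  upperTriangularGL (a : ℝ) (b : ℝ) (d : ℝ)
    (mul_ne_zero (by exact_mod_cast ha.ne') (by exact_mod_cast hd.ne'))

theorem val_upInt (a b d : ℤ) (ha : 0 < a) (hd : 0 < d) :
    ((upInt a b d ha hd : GL (Fin 2) ℝ) : Matrix (Fin 2) (Fin 2) ℝ) =
      !![(a : ℝ), (b : ℝ); 0, (d : ℝ)] := rfl

theorem det_upInt (a b d : ℤ) (ha : 0 < a) (hd : 0 < d) :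
    ((upInt a b d ha hd).det : ℝ) = a * d := by
  rw [Matrix.GeneralLinearGroup.val_det_apply, val_upInt, Matrix.det_fin_two_of]
  ring

theorem det_upInt_pos (a b d : ℤ) (ha : 0 < a) (hd : 0 < d) :
    0 < ((upInt a b d ha hd).det : ℝ) := by
  rw [det_upInt]
  have ha' : (0 : ℝ) < a := by exact_mod_cast ha
  have hd' : (0 : ℝ) < d := by exact_mod_cast hd
  positivity

theorem upInt_one_zero (a b d : ℤ) (ha : 0 < a) (hd : 0 < d) :
    (upInt a b d ha hd : GL (Fin 2) ℝ) 1 0 = 0 := by
  simp [val_upInt]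

theorem coe_upInt_smul (a b d : ℤ) (ha : 0 < a) (hd : 0 < d) (τ : ℍ) :
    ((upInt a b d ha hd • τ : ℍ) : ℂ) = ((a : ℂ) * τ + b) / d := by
  rw [coe_smul_of_det_pos (det_upInt_pos a b d ha hd)]
  simp [num, denom, val_upInt]

theorem denom_upInt (a b d : ℤ) (ha : 0 < a) (hd : 0 < d) (τ : ℍ) :
    denom (upInt a b d ha hd) τ = d := by
  simp [denom, val_upInt]

/-- Slash by an upper triangular integral matrix preserves the class `𝒟`. -/
theorem Decay.slash_upInt {f : ℍ → ℂ} (hf : Decay f) (k : ℤ) (a b d : ℤ) (ha : 0 < a)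
    (hd : 0 < d) : Decay (f ∣[k] upInt a b d ha hd) := by
  obtain ⟨M, hM, hfM⟩ := hf
  refine ⟨d.toNat * M, Nat.mul_pos (by omega) hM, ⟨?_, ?_, ?_⟩⟩
  · exact hfM.holo.slash k _
  · intro z
    have hP : ((((d.toNat * M : ℕ) : ℝ)) : ℂ) = (d : ℂ) * M := by
      have : ((d.toNat : ℤ)) = d := Int.toNat_of_nonneg hd.le
      have h2 : ((d.toNat : ℕ) : ℂ) = (d : ℂ) := by exact_mod_cast congrArg (Int.cast (R := ℂ)) this
      push_cast
      rw [h2]
    by_cases hz : 0 < z.im
    · have hz' : 0 < (z + (((d.toNat * M : ℕ) : ℝ) : ℂ)).im := by simpa using hz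
      simp only [Function.comp_apply, ofComplex_apply_of_im_pos hz,
        ofComplex_apply_of_im_pos hz']
      rw [slash_apply_of_det_pos k f (det_upInt_pos a b d ha hd),
        slash_apply_of_det_pos k f (det_upInt_pos a b d ha hd), denom_upInt, denom_upInt]
      congr 2
      have hper := (hfM.per.nat_mul a.toNat)
      have e1 : f (upInt a b d ha hd • (⟨z + (((d.toNat * M : ℕ) : ℝ) : ℂ), hz'⟩ : ℍ)) =
          (f ∘ ofComplex) (((upInt a b d ha hd • (⟨z, hz⟩ : ℍ) : ℍ) : ℂ) +
            ((a.toNat : ℕ) : ℂ) * ((M : ℝ) : ℂ)) := by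
        simp only [Function.comp_apply]
        congr 1
        apply UpperHalfPlane.ext
        have him : 0 < (((upInt a b d ha hd • (⟨z, hz⟩ : ℍ) : ℍ) : ℂ) +
            ((a.toNat : ℕ) : ℂ) * ((M : ℝ) : ℂ)).im := by
          have := (upInt a b d ha hd • (⟨z, hz⟩ : ℍ) : ℍ).im_pos
          simpa using this
        rw [ofComplex_apply_of_im_pos him]
        simp only [coe_upInt_smul, UpperHalfPlane.coe_mk]
        have hdC : (d : ℂ) ≠ 0 := by exact_mod_cast hd.ne'
        have haC : ((a.toNat : ℕ) : ℂ) = (a : ℂ) := by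
          have : ((a.toNat : ℤ)) = a := Int.toNat_of_nonneg ha.le
          exact_mod_cast congrArg (Int.cast (R := ℂ)) this
        rw [hP, haC]
        field_simp
        push_cast
        ring
      rw [e1, hper]
      simp
    · have hz1 : z.im ≤ 0 := not_lt.mp hz
      have hz' : (z + (((d.toNat * M : ℕ) : ℝ) : ℂ)).im ≤ 0 := by simpa using hz1
      exact comp_ofComplex_of_im_le_zero _ _ _ hz' hz1
  · exact hfM.zero.slash k (upInt_one_zero a b d ha hd)

end Fermat.Agent.S22.Sep

end
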