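import Fermat.Agent.S22.Defs
import Fermat.Agent.S22.SepHecke

/-!
# S22: Bezout / Hermite decomposition `α g = g' u`

For `α = [a, b; 0, d]` integral with `a, d > 0` and `g ∈ SL(2,ℤ)` there are `g' ∈ SL(2,ℤ)` and an
integral upper triangular `u = [a', b'; 0, d']` with `a', d' > 0` such that `α g = g' u`.
-/

set_option autoImplicit false

noncomputable section

namespace Fermat.Agent.S22.Sep

open Complex UpperHalfPlane Matrix.SpecialLinearGroup ModularForm
open scoped MatrixGroups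

/-- Integer form of the decomposition. -/
theorem exists_decomp_int (g : SL(2, ℤ)) (a b d : ℤ) (ha : 0 < a) (hd : 0 < d) :
    ∃ (g' : SL(2, ℤ)) (a' b' d' : ℤ), 0 < a' ∧ 0 < d' ∧
      a * g 0 0 + b * g 1 0 = g' 0 0 * a' ∧
      a * g 0 1 + b * g 1 1 = g' 0 0 * b' + g' 0 1 * d' ∧
      d * g 1 0 = g' 1 0 * a' ∧
      d * g 1 1 = g' 1 0 * b' + g' 1 1 * d' := by
  have hdet : g 0 0 * g 1 1 - g 0 1 * g 1 0 = 1 := by
    have h := g.det_coe
    rwa [Matrix.det_fin_two] at h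
  set M00 : ℤ := a * g 0 0 + b * g 1 0 with hM00
  set M10 : ℤ := d * g 1 0 with hM10
  set M01 : ℤ := a * g 0 1 + b * g 1 1 with hM01
  set M11 : ℤ := d * g 1 1 with hM11
  have hne : ¬ (M00 = 0 ∧ M10 = 0) := by
    rintro ⟨h1, h2⟩
    have hg10 : g 1 0 = 0 := by
      rcases mul_eq_zero.mp h2 with h | h
      · exact absurd h hd.ne'
      · exact h
    have hg00 : g 0 0 = 0 := by
      rw [hM00, hg10, mul_zero, add_zero] at h1
      rcases mul_eq_zero.mp h1 with h | h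
      · exact absurd h ha.ne'
      · exact h
    rw [hg00, hg10] at hdet
    simp at hdet
  have he_pos : 0 < Int.gcd M00 M10 := by
    rw [Int.gcd_pos_iff]
    by_contra h
    simp only [not_or, not_not] at h
    exact hne h
  have hcop : IsCoprime (M00 / (Int.gcd M00 M10 : ℤ)) (M10 / (Int.gcd M00 M10 : ℤ)) := by
    rw [Int.isCoprime_iff_gcd_eq_one]
    exact Int.gcd_div_gcd_div_gcd he_pos
  obtain ⟨g', hg0, hg1⟩ := hcop.exists_SL2_col 0
  have hx : M00 = (M00 / (Int.gcd M00 M10 : ℤ)) * (Int.gcd M00 M10 : ℤ) :=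
    (Int.ediv_mul_cancel (Int.gcd_dvd_left ..)).symm
  have hy : M10 = (M10 / (Int.gcd M00 M10 : ℤ)) * (Int.gcd M00 M10 : ℤ) :=
    (Int.ediv_mul_cancel (Int.gcd_dvd_right ..)).symm
  set e : ℤ := (Int.gcd M00 M10 : ℤ) with he
  have he_pos' : 0 < e := by
    rw [he]
    exact_mod_cast he_pos
  rw [← hg0] at hx
  rw [← hg1] at hy
  have hdet' : g' 0 0 * g' 1 1 - g' 0 1 * g' 1 0 = 1 := by
    have h := g'.det_coe
    rwa [Matrix.det_fin_two] at h
  have hMdet : M00 * M11 - M10 * M01 = a * d := by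
    rw [hM00, hM11, hM10, hM01]
    linear_combination (a * d) * hdet
  refine ⟨g', e, g' 1 1 * M01 - g' 0 1 * M11, g' 0 0 * M11 - g' 1 0 * M01, he_pos', ?_,
    hx, ?_, hy, ?_⟩
  · have h1 : e * (g' 0 0 * M11 - g' 1 0 * M01) = a * d := by
      rw [← hMdet]
      linear_combination (-M11) * hx + M01 * hy
    have h2 : 0 < e * (g' 0 0 * M11 - g' 1 0 * M01) := by
      rw [h1]; exact mul_pos ha hd
    by_contra hcon
    have hle : g' 0 0 * M11 - g' 1 0 * M01 ≤ 0 := not_lt.mp hcon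
    have := mul_nonpos_of_nonneg_of_nonpos he_pos'.le hle
    linarith
  · linear_combination (-M01) * hdet'
  · linear_combination (-M11) * hdet'

/-- The decomposition as an identity in `GL(2,ℝ)`. -/
theorem exists_decomp (g : SL(2, ℤ)) (a b d : ℤ) (ha : 0 < a) (hd : 0 < d) :
    ∃ (g' : SL(2, ℤ)) (a' b' d' : ℤ) (ha' : 0 < a') (hd' : 0 < d'),
      upInt a b d ha hd * mapGL ℝ g = mapGL ℝ g' * upInt a' b' d' ha' hd' := by
  obtain ⟨g', a', b', d', ha', hd', h00, h01, h10, h11⟩ := exists_decomp_int g a b d ha hd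
  refine ⟨g', a', b', d', ha', hd', ?_⟩
  apply Units.ext
  rw [Units.val_mul, Units.val_mul, val_upInt, val_upInt]
  have e1 : ((mapGL ℝ g : GL (Fin 2) ℝ) : Matrix (Fin 2) (Fin 2) ℝ) =
      !![(g 0 0 : ℝ), (g 0 1 : ℝ); (g 1 0 : ℝ), (g 1 1 : ℝ)] := by
    ext i j
    fin_cases i <;> fin_cases j <;> simp [mapGL_apply]
  have e2 : ((mapGL ℝ g' : GL (Fin 2) ℝ) : Matrix (Fin 2) (Fin 2) ℝ) =
      !![(g' 0 0 : ℝ), (g' 0 1 : ℝ); (g' 1 0 : ℝ), (g' 1 1 : ℝ)] := by
    ext i j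
    fin_cases i <;> fin_cases j <;> simp [mapGL_apply]
  rw [e1, e2]
  have h00' := congrArg (Int.cast (R := ℝ)) h00
  have h01' := congrArg (Int.cast (R := ℝ)) h01
  have h10' := congrArg (Int.cast (R := ℝ)) h10
  have h11' := congrArg (Int.cast (R := ℝ)) h11
  push_cast at h00' h01' h10' h11'
  ext i j
  fin_cases i <;> fin_cases j <;>
    simp [Matrix.mul_apply, Fin.sum_univ_two] <;> linarith

end Fermat.Agent.S22.Sep

namespace Fermat.Agent.S22

open Complex UpperHalfPlane Matrix.SpecialLinearGroup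
open scoped MatrixGroups

theorem mob_eq_coe_smul (g : SL(2, ℤ)) {z : ℂ} (hz : 0 < z.im) :
    mob g z = ((g • (⟨z, hz⟩ : ℍ) : ℍ) : ℂ) := by
  simp [mob, ofComplex_apply_of_im_pos hz]

/-- **Bezout / Hermite decomposition** in terms of `mob`. -/
theorem exists_mob_decomp (g : SL(2, ℤ)) (a b d : ℤ) (ha : 0 < a) (hd : 0 < d) :
    ∃ (g' : SL(2, ℤ)) (a' b' d' : ℤ), 0 < a' ∧ 0 < d' ∧ ∀ z : ℂ, 0 < z.im →
      ((a : ℂ) * mob g z + b) / d = mob g' (((a' : ℂ) * z + b') / d') := by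
  obtain ⟨g', a', b', d', ha', hd', h⟩ := Sep.exists_decomp g a b d ha hd
  refine ⟨g', a', b', d', ha', hd', fun z hz => ?_⟩
  set τ : ℍ := ⟨z, hz⟩ with hτ
  have h1 : ((a : ℂ) * mob g z + b) / d =
      ((Sep.upInt a b d ha hd • (g • τ) : ℍ) : ℂ) := by
    rw [Sep.coe_upInt_smul, mob_eq_coe_smul g hz]
  have h2 : ((a' : ℂ) * z + b') / d' = ((Sep.upInt a' b' d' ha' hd' • τ : ℍ) : ℂ) := by
    rw [Sep.coe_upInt_smul]
  have h3 : mob g' (((Sep.upInt a' b' d' ha' hd' • τ : ℍ) : ℂ)) =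
      ((g' • (Sep.upInt a' b' d' ha' hd' • τ) : ℍ) : ℂ) := by
    simp [mob]
  rw [h1, h2, h3]
  congr 1
  have e1 : Sep.upInt a b d ha hd • (g • τ) = (Sep.upInt a b d ha hd * mapGL ℝ g) • τ := by
    rw [mul_smul]; rfl
  have e2 : g' • (Sep.upInt a' b' d' ha' hd' • τ) =
      (mapGL ℝ g' * Sep.upInt a' b' d' ha' hd') • τ := by
    rw [mul_smul]; rfl
  rw [e1, e2, h]

end Fermat.Agent.S22

end
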