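import Mathlib

/-!
# S22: basic definitions for periods of cusp forms

* `StripDecay h`: `h` decays exponentially as `Im z → ∞`, uniformly in every vertical strip.
* `mob g z`: Moebius action of `g ∈ SL(2,ℤ)` on `z ∈ ℂ` (meaningful when `0 < Im z`).
* `IsPrim F h`: `F` is a primitive of `h` on the upper half plane.
* `CuspVal F g L`: `F` has the value `L` at the cusp `g∞`, i.e. `F (g z) - L` decays
  exponentially in vertical strips.
-/

set_option autoImplicit false

open UpperHalfPlane
open scoped MatrixGroups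

namespace Fermat.Agent.S22

/-- Exponential decay in every vertical strip `|Re z| ≤ R`, as `Im z → ∞`. -/
def StripDecay (h : ℂ → ℂ) : Prop :=
  ∀ R : ℝ, ∃ C c A : ℝ, 0 < c ∧
    ∀ z : ℂ, |z.re| ≤ R → A ≤ z.im → ‖h z‖ ≤ C * Real.exp (-c * z.im)

/-- Moebius action of `SL(2,ℤ)` on `ℂ` (meaningful for `0 < z.im`). -/
noncomputable def mob (g : SL(2, ℤ)) (z : ℂ) : ℂ := ((g • ofComplex z : ℍ) : ℂ)

/-- `F` is a primitive of `h` on the upper half plane. -/
def IsPrim (F h : ℂ → ℂ) : Prop := ∀ z : ℂ, 0 < z.im → HasDerivAt F (h z) z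

/-- `F` has the value `L` at the cusp `g∞`. -/
def CuspVal (F : ℂ → ℂ) (g : SL(2, ℤ)) (L : ℂ) : Prop :=
  StripDecay (fun z => F (mob g z) - L)

end Fermat.Agent.S22
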