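import Mathlib
import Fermat.Agent.S22.Defs

/-!
# S22: calculus of `StripDecay` and `StripPoly`
-/

set_option autoImplicit false

open Complex Filter Topology Set UpperHalfPlane
open scoped MatrixGroups

namespace Fermat.Agent.S22

theorem exp_neg_mul_le_of_le {c c' y : ℝ} (hc : c' ≤ c) (hy : 0 ≤ y) :
    Real.exp (-c * y) ≤ Real.exp (-c' * y) := by
  apply Real.exp_le_exp_of_le
  nlinarith

theorem StripDecay.normalize {h : ℂ → ℂ} (hh : StripDecay h) (R : ℝ) :
    ∃ C c A : ℝ, 0 ≤ C ∧ 0 < c ∧ 1 ≤ A ∧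
      ∀ z : ℂ, |z.re| ≤ R → A ≤ z.im → ‖h z‖ ≤ C * Real.exp (-c * z.im) := by
  obtain ⟨C, c, A, hc, hb⟩ := hh R
  refine ⟨max C 0, c, max A 1, le_max_right _ _, hc, le_max_right _ _, fun z hz hA => ?_⟩
  refine (hb z hz ((le_max_left _ _).trans hA)).trans ?_
  exact mul_le_mul_of_nonneg_right (le_max_left _ _) (Real.exp_pos _).le

theorem StripDecay.zero : StripDecay (fun _ => (0 : ℂ)) := by
  intro R
  refine ⟨0, 1, 0, one_pos, fun z _ _ => ?_⟩
  simp

theorem StripDecay.congr {h h' : ℂ → ℂ} (hh : StripDecay h)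
    (heq : ∀ z : ℂ, 0 < z.im → h z = h' z) : StripDecay h' := by
  intro R
  obtain ⟨C, c, A, hC, hc, hA, hb⟩ := hh.normalize R
  refine ⟨C, c, A, hc, fun z hz hzA => ?_⟩
  rw [← heq z (by linarith)]
  exact hb z hz hzA

theorem StripDecay.add {h₁ h₂ : ℂ → ℂ} (h1 : StripDecay h₁) (h2 : StripDecay h₂) :
    StripDecay (fun z => h₁ z + h₂ z) := by
  intro R
  obtain ⟨C₁, c₁, A₁, hC₁, hc₁, hA₁, hb₁⟩ := h1.normalize R
  obtain ⟨C₂, c₂, A₂, hC₂, hc₂, hA₂, hb₂⟩ := h2.normalize R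
  refine ⟨C₁ + C₂, min c₁ c₂, max A₁ A₂, lt_min hc₁ hc₂, fun z hz hzA => ?_⟩
  have hy : 0 ≤ z.im := by
    have := (le_max_left A₁ A₂).trans hzA
    linarith
  have e1 := hb₁ z hz ((le_max_left _ _).trans hzA)
  have e2 := hb₂ z hz ((le_max_right _ _).trans hzA)
  have f1 := exp_neg_mul_le_of_le (min_le_left c₁ c₂) hy
  have f2 := exp_neg_mul_le_of_le (min_le_right c₁ c₂) hy
  calc ‖h₁ z + h₂ z‖ ≤ ‖h₁ z‖ + ‖h₂ z‖ := norm_add_le _ _
    _ ≤ C₁ * Real.exp (-c₁ * z.im) + C₂ * Real.exp (-c₂ * z.im) := add_le_add e1 e2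
    _ ≤ C₁ * Real.exp (-(min c₁ c₂) * z.im) + C₂ * Real.exp (-(min c₁ c₂) * z.im) :=
        add_le_add (mul_le_mul_of_nonneg_left f1 hC₁) (mul_le_mul_of_nonneg_left f2 hC₂)
    _ = (C₁ + C₂) * Real.exp (-(min c₁ c₂) * z.im) := by ring

theorem StripDecay.const_mul {h : ℂ → ℂ} (hh : StripDecay h) (a : ℂ) :
    StripDecay (fun z => a * h z) := by
  intro R
  obtain ⟨C, c, A, hC, hc, hA, hb⟩ := hh.normalize R
  refine ⟨‖a‖ * C, c, A, hc, fun z hz hzA => ?_⟩
  rw [norm_mul, mul_assoc]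
  exact mul_le_mul_of_nonneg_left (hb z hz hzA) (norm_nonneg _)

theorem StripDecay.neg {h : ℂ → ℂ} (hh : StripDecay h) : StripDecay (fun z => - h z) := by
  simpa using hh.const_mul (-1)

theorem StripDecay.sub {h₁ h₂ : ℂ → ℂ} (h1 : StripDecay h₁) (h2 : StripDecay h₂) :
    StripDecay (fun z => h₁ z - h₂ z) := by
  simpa [sub_eq_add_neg] using h1.add h2.neg

theorem StripDecay.sum {ι : Type*} (s : Finset ι) {h : ι → ℂ → ℂ}
    (hh : ∀ i ∈ s, StripDecay (h i)) : StripDecay (fun z => ∑ i ∈ s, h i z) := by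
  classical
  induction s using Finset.induction_on with
  | empty => simpa using StripDecay.zero
  | insert a s ha ih =>
    have h1 : StripDecay (h a) := hh a (Finset.mem_insert_self a s)
    have h2 := ih (fun i hi => hh i (Finset.mem_insert_of_mem hi))
    refine (h1.add h2).congr (fun z _ => ?_)
    rw [Finset.sum_insert ha]

/-- Composition with an affine map `z ↦ a z + b`, `a > 0`, `b` real. -/
theorem StripDecay.comp_affine {h : ℂ → ℂ} (hh : StripDecay h) {a : ℝ} (ha : 0 < a) (b : ℝ) :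
    StripDecay (fun z => h ((a : ℂ) * z + (b : ℂ))) := by
  intro R
  obtain ⟨C, c, A, hC, hc, hA, hb⟩ := hh.normalize (a * R + |b|)
  refine ⟨C, c * a, A / a, mul_pos hc ha, fun z hz hzA => ?_⟩
  have him : ((a : ℂ) * z + (b : ℂ)).im = a * z.im := by simp
  have hre : ((a : ℂ) * z + (b : ℂ)).re = a * z.re + b := by simp
  have h1 : |((a : ℂ) * z + (b : ℂ)).re| ≤ a * R + |b| := by
    rw [hre]
    calc |a * z.re + b| ≤ |a * z.re| + |b| := abs_add_le _ _
      _ = a * |z.re| + |b| := by rw [abs_mul, abs_of_pos ha]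
      _ ≤ a * R + |b| := by gcongr
  have h2 : A ≤ ((a : ℂ) * z + (b : ℂ)).im := by
    rw [him]
    calc A = a * (A / a) := by field_simp
      _ ≤ a * z.im := by gcongr
  have := hb _ h1 h2
  rw [him] at this
  convert this using 3
  ring

/-- Polynomial growth in vertical strips. -/
def StripPoly (q : ℂ → ℂ) : Prop :=
  ∀ R : ℝ, ∃ (K : ℝ) (n : ℕ), ∀ z : ℂ, |z.re| ≤ R → 1 ≤ z.im → ‖q z‖ ≤ K * z.im ^ n

theorem StripPoly.normalize {q : ℂ → ℂ} (hq : StripPoly q) (R : ℝ) :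
    ∃ (K : ℝ) (n : ℕ), 0 ≤ K ∧ ∀ z : ℂ, |z.re| ≤ R → 1 ≤ z.im → ‖q z‖ ≤ K * z.im ^ n := by
  obtain ⟨K, n, hK⟩ := hq R
  refine ⟨max K 0, n, le_max_right _ _, fun z hz h1 => (hK z hz h1).trans ?_⟩
  exact mul_le_mul_of_nonneg_right (le_max_left _ _) (by positivity)

theorem StripPoly.const (c : ℂ) : StripPoly (fun _ => c) := by
  intro R
  exact ⟨‖c‖, 0, fun z _ _ => by simp⟩

theorem StripPoly.id : StripPoly (fun z => z) := by
  intro R
  refine ⟨|R| + 1, 1, fun z hz h1 => ?_⟩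
  have h2 : ‖z‖ ≤ |z.re| + |z.im| := Complex.norm_le_abs_re_add_abs_im z
  have h3 : |z.im| = z.im := abs_of_nonneg (by linarith)
  have h4 : |z.re| ≤ |R| := hz.trans (le_abs_self R)
  have h5 : 0 ≤ |R| := abs_nonneg R
  rw [pow_one]
  nlinarith

theorem StripPoly.add {q₁ q₂ : ℂ → ℂ} (h1 : StripPoly q₁) (h2 : StripPoly q₂) :
    StripPoly (fun z => q₁ z + q₂ z) := by
  intro R
  obtain ⟨K₁, n₁, hK₁, hb₁⟩ := h1.normalize R
  obtain ⟨K₂, n₂, hK₂, hb₂⟩ := h2.normalize R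
  refine ⟨K₁ + K₂, max n₁ n₂, fun z hz hz1 => ?_⟩
  have e1 := hb₁ z hz hz1
  have e2 := hb₂ z hz hz1
  have p1 : z.im ^ n₁ ≤ z.im ^ (max n₁ n₂) := pow_le_pow_right₀ hz1 (le_max_left _ _)
  have p2 : z.im ^ n₂ ≤ z.im ^ (max n₁ n₂) := pow_le_pow_right₀ hz1 (le_max_right _ _)
  calc ‖q₁ z + q₂ z‖ ≤ ‖q₁ z‖ + ‖q₂ z‖ := norm_add_le _ _
    _ ≤ K₁ * z.im ^ n₁ + K₂ * z.im ^ n₂ := add_le_add e1 e2
    _ ≤ K₁ * z.im ^ (max n₁ n₂) + K₂ * z.im ^ (max n₁ n₂) :=
        add_le_add (mul_le_mul_of_nonneg_left p1 hK₁) (mul_le_mul_of_nonneg_left p2 hK₂)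
    _ = (K₁ + K₂) * z.im ^ (max n₁ n₂) := by ring

theorem StripPoly.mul {q₁ q₂ : ℂ → ℂ} (h1 : StripPoly q₁) (h2 : StripPoly q₂) :
    StripPoly (fun z => q₁ z * q₂ z) := by
  intro R
  obtain ⟨K₁, n₁, hK₁, hb₁⟩ := h1.normalize R
  obtain ⟨K₂, n₂, hK₂, hb₂⟩ := h2.normalize R
  refine ⟨K₁ * K₂, n₁ + n₂, fun z hz hz1 => ?_⟩
  have e1 := hb₁ z hz hz1
  have e2 := hb₂ z hz hz1
  have hy : 0 ≤ z.im := by linarith
  calc ‖q₁ z * q₂ z‖ = ‖q₁ z‖ * ‖q₂ z‖ := norm_mul _ _
    _ ≤ (K₁ * z.im ^ n₁) * (K₂ * z.im ^ n₂) :=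
        mul_le_mul e1 e2 (norm_nonneg _) (by positivity)
    _ = K₁ * K₂ * z.im ^ (n₁ + n₂) := by rw [pow_add]; ring

theorem StripPoly.pow {q : ℂ → ℂ} (hq : StripPoly q) (n : ℕ) :
    StripPoly (fun z => q z ^ n) := by
  induction n with
  | zero => simpa using StripPoly.const 1
  | succ n ih =>
    simp only [pow_succ]
    exact ih.mul hq

theorem StripPoly.sum {ι : Type*} (s : Finset ι) {q : ι → ℂ → ℂ}
    (hq : ∀ i ∈ s, StripPoly (q i)) : StripPoly (fun z => ∑ i ∈ s, q i z) := by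
  classical
  induction s using Finset.induction_on with
  | empty => simpa using StripPoly.const 0
  | insert a s ha ih =>
    have h1 : StripPoly (q a) := hq a (Finset.mem_insert_self a s)
    have h2 := ih (fun i hi => hq i (Finset.mem_insert_of_mem hi))
    have := h1.add h2
    simp only [Finset.sum_insert ha]
    exact this

theorem StripPoly.eval (P : Polynomial ℂ) : StripPoly (fun z => P.eval z) := by
  have : (fun z : ℂ => P.eval z) = fun z => ∑ i ∈ Finset.range (P.natDegree + 1), P.coeff i * z ^ i := by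
    funext z
    rw [Polynomial.eval_eq_sum_range]
  rw [this]
  exact StripPoly.sum _ (fun i _ => (StripPoly.const _).mul (StripPoly.id.pow i))

/-- Exponential decay beats polynomial growth. -/
theorem StripDecay.mul_stripPoly {h q : ℂ → ℂ} (hh : StripDecay h) (hq : StripPoly q) :
    StripDecay (fun z => h z * q z) := by
  intro R
  obtain ⟨C, c, A, hC, hc, hA, hb⟩ := hh.normalize R
  obtain ⟨K, n, hK, hbq⟩ := hq.normalize R
  refine ⟨C * (K * ((n.factorial : ℝ) * (2 / c) ^ n)), c / 2, A, by positivity, fun z hz hzA => ?_⟩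
  have hy1 : 1 ≤ z.im := hA.trans hzA
  have hy : 0 ≤ z.im := by linarith
  have e1 := hb z hz hzA
  have e2 := hbq z hz hy1
  have key : z.im ^ n ≤ (n.factorial : ℝ) * (2 / c) ^ n * Real.exp (c / 2 * z.im) := by
    have h0 : 0 ≤ c / 2 * z.im := by positivity
    have h1 := Real.pow_div_factorial_le_exp (x := c / 2 * z.im) h0 n
    have h2 : (c / 2 * z.im) ^ n ≤ (n.factorial : ℝ) * Real.exp (c / 2 * z.im) := by
      have hf : (0 : ℝ) < n.factorial := by positivity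
      have := (div_le_iff₀ hf).mp h1
      linarith
    have h3 : z.im ^ n = (2 / c) ^ n * (c / 2 * z.im) ^ n := by
      rw [← mul_pow]
      congr 1
      field_simp
    rw [h3]
    calc (2 / c) ^ n * (c / 2 * z.im) ^ n
        ≤ (2 / c) ^ n * ((n.factorial : ℝ) * Real.exp (c / 2 * z.im)) := by gcongr
      _ = (n.factorial : ℝ) * (2 / c) ^ n * Real.exp (c / 2 * z.im) := by ring
  have hexp : Real.exp (-c * z.im) * Real.exp (c / 2 * z.im) = Real.exp (-(c / 2) * z.im) := by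
    rw [← Real.exp_add]
    congr 1
    ring
  calc ‖h z * q z‖ = ‖h z‖ * ‖q z‖ := norm_mul _ _
    _ ≤ (C * Real.exp (-c * z.im)) * (K * z.im ^ n) :=
        mul_le_mul e1 e2 (norm_nonneg _) (by positivity)
    _ ≤ (C * Real.exp (-c * z.im)) *
          (K * ((n.factorial : ℝ) * (2 / c) ^ n * Real.exp (c / 2 * z.im))) := by gcongr
    _ = C * (K * ((n.factorial : ℝ) * (2 / c) ^ n)) *
          (Real.exp (-c * z.im) * Real.exp (c / 2 * z.im)) := by ring
    _ = C * (K * ((n.factorial : ℝ) * (2 / c) ^ n)) * Real.exp (-(c / 2) * z.im) := by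
        rw [hexp]

theorem StripDecay.stripPoly_mul {h q : ℂ → ℂ} (hh : StripDecay h) (hq : StripPoly q) :
    StripDecay (fun z => q z * h z) := by
  simpa [mul_comm] using hh.mul_stripPoly hq

/-- A `StripDecay` function tends to `0` along every vertical line. -/
theorem StripDecay.tendsto_vert {h : ℂ → ℂ} (hh : StripDecay h) (x : ℝ) :
    Tendsto (fun t : ℝ => h ((x : ℂ) + (t : ℂ) * Complex.I)) atTop (𝓝 0) := by
  obtain ⟨C, c, A, hC, hc, hA, hb⟩ := hh.normalize |x|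
  have hlim : Tendsto (fun t : ℝ => C * Real.exp (-c * t)) atTop (𝓝 0) := by
    have h1 : Tendsto (fun t : ℝ => -c * t) atTop atBot := by
      have := tendsto_id.const_mul_atTop_of_neg (show -c < 0 by linarith) (f := fun t : ℝ => t)
        (l := atTop)
      simpa using this
    have h2 := Real.tendsto_exp_atBot.comp h1
    simpa using h2.const_mul C
  refine squeeze_zero_norm' ?_ hlim
  filter_upwards [eventually_ge_atTop A] with t ht
  have := hb ((x : ℂ) + (t : ℂ) * Complex.I) (by simp) (by simpa using ht)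
  simpa using this

theorem StripDecay.const_eq_zero {a : ℂ} (ha : StripDecay (fun _ => a)) : a = 0 := by
  have h1 := ha.tendsto_vert 0
  exact tendsto_nhds_unique tendsto_const_nhds h1

theorem CuspVal.unique {F : ℂ → ℂ} {g : SL(2, ℤ)} {L L' : ℂ} (h : CuspVal F g L)
    (h' : CuspVal F g L') : L = L' := by
  have : StripDecay (fun _ : ℂ => L - L') := by
    refine (StripDecay.sub h' h).congr (fun z _ => ?_)
    ring
  exact sub_eq_zero.mp this.const_eq_zero

end Fermat.Agent.S22
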