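import Mathlib
import Fermat.Agent.S22.Strip

/-!
# S22: primitives on the upper half plane and their values at `i∞`
-/

set_option autoImplicit false

open Complex Filter Topology Set UpperHalfPlane
open scoped MatrixGroups

namespace Fermat.Agent.S22

theorem exists_isPrim {h : ℂ → ℂ} (hh : DifferentiableOn ℂ h {z : ℂ | 0 < z.im}) :
    ∃ F, IsPrim F h := by
  obtain ⟨F, hF⟩ := (convex_halfSpace_im_gt 0).exists_forall_hasDerivWithinAt hh
  exact ⟨F, fun z hz => (hF z hz).hasDerivAt (isOpen_upperHalfPlaneSet.mem_nhds hz)⟩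

theorem IsPrim.unique {F₁ F₂ h : ℂ → ℂ} (h1 : IsPrim F₁ h) (h2 : IsPrim F₂ h) :
    ∃ c : ℂ, ∀ z : ℂ, 0 < z.im → F₁ z = F₂ z + c := by
  have hd1 : DifferentiableOn ℂ F₁ {z : ℂ | 0 < z.im} :=
    fun z hz => (h1 z hz).differentiableAt.differentiableWithinAt
  have hd2 : DifferentiableOn ℂ F₂ {z : ℂ | 0 < z.im} :=
    fun z hz => (h2 z hz).differentiableAt.differentiableWithinAt
  obtain ⟨a, ha⟩ := isOpen_upperHalfPlaneSet.exists_eq_add_of_deriv_eq
    (convex_halfSpace_im_gt 0).isPreconnected hd1 hd2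
    (fun z hz => by rw [(h1 z hz).deriv, (h2 z hz).deriv])
  exact ⟨a, fun z hz => ha hz⟩

theorem IsPrim.congr {F h h' : ℂ → ℂ} (hF : IsPrim F h)
    (heq : ∀ z : ℂ, 0 < z.im → h z = h' z) : IsPrim F h' := by
  intro z hz
  rw [← heq z hz]
  exact hF z hz

theorem IsPrim.add {F₁ F₂ h₁ h₂ : ℂ → ℂ} (h1 : IsPrim F₁ h₁) (h2 : IsPrim F₂ h₂) :
    IsPrim (fun z => F₁ z + F₂ z) (fun z => h₁ z + h₂ z) :=
  fun z hz => (h1 z hz).add (h2 z hz)

theorem IsPrim.sub {F₁ F₂ h₁ h₂ : ℂ → ℂ} (h1 : IsPrim F₁ h₁) (h2 : IsPrim F₂ h₂) :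
    IsPrim (fun z => F₁ z - F₂ z) (fun z => h₁ z - h₂ z) :=
  fun z hz => (h1 z hz).sub (h2 z hz)

theorem IsPrim.const_mul {F h : ℂ → ℂ} (hF : IsPrim F h) (a : ℂ) :
    IsPrim (fun z => a * F z) (fun z => a * h z) :=
  fun z hz => (hF z hz).const_mul a

theorem IsPrim.sub_const {F h : ℂ → ℂ} (hF : IsPrim F h) (a : ℂ) :
    IsPrim (fun z => F z - a) h :=
  fun z hz => (hF z hz).sub_const a

theorem IsPrim.zero : IsPrim (fun _ => (0 : ℂ)) (fun _ => 0) :=
  fun z _ => hasDerivAt_const z 0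

theorem IsPrim.sum {ι : Type*} (s : Finset ι) {F h : ι → ℂ → ℂ}
    (hF : ∀ i ∈ s, IsPrim (F i) (h i)) :
    IsPrim (fun z => ∑ i ∈ s, F i z) (fun z => ∑ i ∈ s, h i z) := by
  intro z hz
  exact HasDerivAt.fun_sum (fun i hi => hF i hi z hz)

/-- Derivative of `u ↦ F (x + u i)`. -/
theorem IsPrim.hasDerivAt_vert {F h : ℂ → ℂ} (hF : IsPrim F h) (x : ℝ) {u : ℝ} (hu : 0 < u) :
    HasDerivAt (fun u : ℝ => F ((x : ℂ) + (u : ℂ) * Complex.I))
      (h ((x : ℂ) + (u : ℂ) * Complex.I) * Complex.I) u := by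
  have hγ : HasDerivAt (fun u : ℝ => (x : ℂ) + (u : ℂ) * Complex.I) Complex.I u := by
    have h1 : HasDerivAt (fun u : ℝ => ((u : ℝ) : ℂ)) 1 u := (hasDerivAt_id u).ofReal_comp
    simpa using (h1.mul_const Complex.I).const_add (x : ℂ)
  have hz : 0 < ((x : ℂ) + (u : ℂ) * Complex.I).im := by simpa using hu
  have := HasDerivAt.scomp (𝕜 := ℝ) (𝕜' := ℂ) u (hF _ hz) hγ
  simpa [Function.comp_def, mul_comm] using this

/-- Derivative of `u ↦ F (u + y i)`. -/
theorem IsPrim.hasDerivAt_horiz {F h : ℂ → ℂ} (hF : IsPrim F h) {y : ℝ} (hy : 0 < y) (u : ℝ) :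
    HasDerivAt (fun u : ℝ => F ((u : ℂ) + (y : ℂ) * Complex.I))
      (h ((u : ℂ) + (y : ℂ) * Complex.I)) u := by
  have hγ : HasDerivAt (fun u : ℝ => (u : ℂ) + (y : ℂ) * Complex.I) 1 u := by
    have h1 : HasDerivAt (fun u : ℝ => ((u : ℝ) : ℂ)) 1 u := (hasDerivAt_id u).ofReal_comp
    simpa using h1.add_const ((y : ℂ) * Complex.I)
  have hz : 0 < ((u : ℂ) + (y : ℂ) * Complex.I).im := by simpa using hy
  have := HasDerivAt.scomp (𝕜 := ℝ) (𝕜' := ℂ) u (hF _ hz) hγ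
  simpa [Function.comp_def] using this

theorem IsPrim.vert_bound {F h : ℂ → ℂ} (hF : IsPrim F h) {x C c A : ℝ}
    (hc : 0 < c) (hA : 0 < A)
    (hb : ∀ t : ℝ, A ≤ t → ‖h ((x : ℂ) + (t : ℂ) * Complex.I)‖ ≤ C * Real.exp (-c * t))
    {s t : ℝ} (hs : A ≤ s) (hst : s ≤ t) :
    ‖F ((x : ℂ) + (t : ℂ) * Complex.I) - F ((x : ℂ) + (s : ℂ) * Complex.I)‖
      ≤ C / c * (Real.exp (-c * s) - Real.exp (-c * t)) := by
  have hderiv : ∀ u : ℝ, 0 < u →
      HasDerivAt (fun u : ℝ => F ((x : ℂ) + (u : ℂ) * Complex.I)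
        - F ((x : ℂ) + (s : ℂ) * Complex.I))
      (h ((x : ℂ) + (u : ℂ) * Complex.I) * Complex.I) u :=
    fun u hu => (hF.hasDerivAt_vert x hu).sub_const _
  have hB : ∀ u : ℝ, HasDerivAt (fun u : ℝ => C / c * (Real.exp (-c * s) - Real.exp (-c * u)))
      (C * Real.exp (-c * u)) u := by
    intro u
    have h1 : HasDerivAt (fun u : ℝ => -c * u) (-c) u := by
      simpa using (hasDerivAt_id u).const_mul (-c)
    have h2 := h1.exp
    have h3 := (h2.const_sub (Real.exp (-c * s))).const_mul (C / c)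
    have hc' : c ≠ 0 := hc.ne'
    have h4 : C * Real.exp (-c * u) = C / c * -(Real.exp (-c * u) * -c) := by
      field_simp
    rw [h4]
    exact h3
  have key := image_norm_le_of_norm_deriv_right_le_deriv_boundary
    (f := fun u : ℝ => F ((x : ℂ) + (u : ℂ) * Complex.I) - F ((x : ℂ) + (s : ℂ) * Complex.I))
    (f' := fun u : ℝ => h ((x : ℂ) + (u : ℂ) * Complex.I) * Complex.I)
    (a := s) (b := t)
    (B := fun u : ℝ => C / c * (Real.exp (-c * s) - Real.exp (-c * u)))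
    (B' := fun u : ℝ => C * Real.exp (-c * u))
    (fun u hu => (hderiv u (by linarith [hu.1])).continuousAt.continuousWithinAt)
    (fun u hu => (hderiv u (by linarith [hu.1])).hasDerivWithinAt)
    (by simp) hB
    (fun u hu => by
      rw [norm_mul, Complex.norm_I, mul_one]
      exact hb u (by linarith [hu.1]))
    (right_mem_Icc.mpr hst)
  exact key

/-- A primitive of a function decaying exponentially along a vertical line has a limit there,
with exponential rate. -/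
theorem IsPrim.exists_vert_limit {F h : ℂ → ℂ} (hF : IsPrim F h) {x C c A : ℝ}
    (hC : 0 ≤ C) (hc : 0 < c) (hA : 0 < A)
    (hb : ∀ t : ℝ, A ≤ t → ‖h ((x : ℂ) + (t : ℂ) * Complex.I)‖ ≤ C * Real.exp (-c * t)) :
    ∃ L : ℂ, ∀ s : ℝ, A ≤ s →
      ‖F ((x : ℂ) + (s : ℂ) * Complex.I) - L‖ ≤ C / c * Real.exp (-c * s) := by
  set φ : ℝ → ℂ := fun u => F ((x : ℂ) + (u : ℂ) * Complex.I) with hφ
  have hbd : ∀ s t : ℝ, A ≤ s → s ≤ t → ‖φ t - φ s‖ ≤ C / c * Real.exp (-c * s) := by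
    intro s t hs hst
    refine (hF.vert_bound hc hA hb hs hst).trans ?_
    have : 0 ≤ C / c * Real.exp (-c * t) := by positivity
    nlinarith
  have hlim0 : Tendsto (fun s : ℝ => C / c * Real.exp (-c * s)) atTop (𝓝 0) := by
    have h1 : Tendsto (fun t : ℝ => -c * t) atTop atBot := by
      have := tendsto_id.const_mul_atTop_of_neg (show -c < 0 by linarith) (f := fun t : ℝ => t)
        (l := atTop)
      simpa using this
    have h2 := Real.tendsto_exp_atBot.comp h1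
    simpa using h2.const_mul (C / c)
  have hcauchy : Cauchy (map φ atTop) := by
    rw [Metric.cauchy_iff]
    refine ⟨inferInstance, fun ε hε => ?_⟩
    have hev : ∀ᶠ s : ℝ in atTop, C / c * Real.exp (-c * s) < ε :=
      (tendsto_order.1 hlim0).2 ε hε
    obtain ⟨s₀, hs₀⟩ := (hev.and (eventually_ge_atTop A)).exists
    refine ⟨φ '' Ici s₀, image_mem_map (Ici_mem_atTop s₀), ?_⟩
    rintro _ ⟨s, hs, rfl⟩ _ ⟨t, ht, rfl⟩
    have hs' : s₀ ≤ s := hs
    have ht' : s₀ ≤ t := ht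
    have hmono : ∀ u : ℝ, s₀ ≤ u → C / c * Real.exp (-c * u) ≤ C / c * Real.exp (-c * s₀) := by
      intro u hu
      have : Real.exp (-c * u) ≤ Real.exp (-c * s₀) := by
        apply Real.exp_le_exp_of_le
        nlinarith
      have hCc : 0 ≤ C / c := by positivity
      exact mul_le_mul_of_nonneg_left this hCc
    rcases le_total s t with hst | hts
    · rw [dist_comm, dist_eq_norm]
      exact ((hbd s t (hs₀.2.trans hs') hst).trans (hmono s hs')).trans_lt hs₀.1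
    · rw [dist_eq_norm]
      exact ((hbd t s (hs₀.2.trans ht') hts).trans (hmono t ht')).trans_lt hs₀.1
  obtain ⟨L, hL⟩ := cauchy_map_iff_exists_tendsto.mp hcauchy
  refine ⟨L, fun s hs => ?_⟩
  have h1 : Tendsto (fun t : ℝ => ‖φ t - φ s‖) atTop (𝓝 ‖L - φ s‖) :=
    (hL.sub_const (φ s)).norm
  have h2 : ‖L - φ s‖ ≤ C / c * Real.exp (-c * s) := by
    refine le_of_tendsto h1 ?_
    filter_upwards [eventually_ge_atTop s] with t ht
    exact hbd s t hs ht
  rw [norm_sub_rev]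
  exact h2

theorem IsPrim.horiz_bound {F h : ℂ → ℂ} (hF : IsPrim F h) {y B R : ℝ} (hy : 0 < y)
    (hb : ∀ x : ℝ, |x| ≤ R → ‖h ((x : ℂ) + (y : ℂ) * Complex.I)‖ ≤ B) {x : ℝ} (hx : |x| ≤ R) :
    ‖F ((x : ℂ) + (y : ℂ) * Complex.I) - F ((y : ℂ) * Complex.I)‖ ≤ B * |x| := by
  have hR : 0 ≤ R := (abs_nonneg x).trans hx
  have key := Convex.norm_image_sub_le_of_norm_hasDerivWithin_le
    (f := fun u : ℝ => F ((u : ℂ) + (y : ℂ) * Complex.I))
    (f' := fun u : ℝ => h ((u : ℂ) + (y : ℂ) * Complex.I))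
    (s := Icc (-R) R) (x := 0) (y := x) (C := B)
    (fun u _ => (hF.hasDerivAt_horiz hy u).hasDerivWithinAt)
    (fun u hu => hb u (abs_le.mpr hu))
    (convex_Icc _ _) (by simp [hR]) (abs_le.mp hx)
  simpa using key

/-- **Main analytic lemma**: a primitive of a `StripDecay` function converges, with exponential
rate in vertical strips, to a constant as `Im z → ∞`. -/
theorem IsPrim.exists_stripDecay_sub {F h : ℂ → ℂ} (hF : IsPrim F h) (hh : StripDecay h) :
    ∃ L : ℂ, StripDecay (fun z => F z - L) := by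
  obtain ⟨C₀, c₀, A₀, hC₀, hc₀, hA₀, hb₀⟩ := hh.normalize 0
  obtain ⟨L, hL⟩ := hF.exists_vert_limit (x := 0) hC₀ hc₀ (by linarith : 0 < A₀)
    (fun t ht => by
      have := hb₀ ((0 : ℝ) + (t : ℂ) * Complex.I) (by simp) (by simpa using ht)
      simpa using this)
  refine ⟨L, fun R => ?_⟩
  obtain ⟨C, c, A, hC, hc, hA, hb⟩ := hh.normalize R
  refine ⟨C * |R| + C₀ / c₀, min c c₀, max A A₀, lt_min hc hc₀, fun z hz hzA => ?_⟩
  have hyA : A ≤ z.im := (le_max_left _ _).trans hzA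
  have hyA₀ : A₀ ≤ z.im := (le_max_right _ _).trans hzA
  have hy : 0 < z.im := by linarith
  have hzeq : z = (z.re : ℂ) + (z.im : ℂ) * Complex.I := (Complex.re_add_im z).symm
  have e1 : ‖F ((z.re : ℂ) + (z.im : ℂ) * Complex.I) - F ((z.im : ℂ) * Complex.I)‖
      ≤ C * Real.exp (-c * z.im) * |z.re| := by
    refine hF.horiz_bound hy (R := R) (fun x hx => ?_) hz
    have := hb ((x : ℂ) + (z.im : ℂ) * Complex.I) (by simpa using hx) (by simpa using hyA)
    simpa using this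
  have e2 : ‖F ((z.im : ℂ) * Complex.I) - L‖ ≤ C₀ / c₀ * Real.exp (-c₀ * z.im) := by
    have := hL z.im hyA₀
    simpa using this
  have f1 := exp_neg_mul_le_of_le (min_le_left c c₀) hy.le
  have f2 := exp_neg_mul_le_of_le (min_le_right c c₀) hy.le
  have hRabs : |z.re| ≤ |R| := hz.trans (le_abs_self R)
  have hCc : 0 ≤ C₀ / c₀ := by positivity
  calc ‖F z - L‖ = ‖(F ((z.re : ℂ) + (z.im : ℂ) * Complex.I) - F ((z.im : ℂ) * Complex.I))
        + (F ((z.im : ℂ) * Complex.I) - L)‖ := by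
        rw [← hzeq]; congr 1; ring
    _ ≤ ‖F ((z.re : ℂ) + (z.im : ℂ) * Complex.I) - F ((z.im : ℂ) * Complex.I)‖
        + ‖F ((z.im : ℂ) * Complex.I) - L‖ := norm_add_le _ _
    _ ≤ C * Real.exp (-c * z.im) * |z.re| + C₀ / c₀ * Real.exp (-c₀ * z.im) := add_le_add e1 e2
    _ ≤ C * Real.exp (-(min c c₀) * z.im) * |R| + C₀ / c₀ * Real.exp (-(min c c₀) * z.im) := by
        gcongr
    _ = (C * |R| + C₀ / c₀) * Real.exp (-(min c c₀) * z.im) := by ring

end Fermat.Agent.S22
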