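import Mathlib
import Fermat.Agent.S22.Prim

/-!
# S22: Moebius action, cusp values, periods
-/

set_option autoImplicit false

open Complex Filter Topology Set UpperHalfPlane
open scoped MatrixGroups

namespace Fermat.Agent.S22

/-- Denominator `c z + d` of the Moebius action. -/
noncomputable def den (g : SL(2, ℤ)) (z : ℂ) : ℂ := ((g 1 0 : ℤ) : ℂ) * z + ((g 1 1 : ℤ) : ℂ)

/-- Numerator `a z + b` of the Moebius action. -/
noncomputable def numr (g : SL(2, ℤ)) (z : ℂ) : ℂ := ((g 0 0 : ℤ) : ℂ) * z + ((g 0 1 : ℤ) : ℂ)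

theorem mob_im_pos (g : SL(2, ℤ)) (z : ℂ) : 0 < (mob g z).im := (g • ofComplex z).im_pos

theorem ofComplex_mob (g : SL(2, ℤ)) (z : ℂ) : ofComplex (mob g z) = g • ofComplex z :=
  ofComplex_apply _

theorem mob_mul (g h : SL(2, ℤ)) (z : ℂ) : mob (g * h) z = mob g (mob h z) := by
  simp only [mob, ofComplex_apply, mul_smul]

theorem mob_one {z : ℂ} (hz : 0 < z.im) : mob 1 z = z := by
  simp [mob, ofComplex_apply_of_im_pos hz]

theorem mob_eq_coe (g : SL(2, ℤ)) (τ : ℍ) : mob g (τ : ℂ) = ((g • τ : ℍ) : ℂ) := by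
  simp [mob, ofComplex_apply]

theorem denom_eq_den (g : SL(2, ℤ)) (z : ℂ) : denom (g : GL (Fin 2) ℝ) z = den g z := by
  simp [denom, den]

theorem den_ne_zero (g : SL(2, ℤ)) {z : ℂ} (hz : 0 < z.im) : den g z ≠ 0 := by
  rw [← denom_eq_den]
  exact denom_ne_zero (g : GL (Fin 2) ℝ) ⟨z, hz⟩

theorem mob_eq (g : SL(2, ℤ)) {z : ℂ} (hz : 0 < z.im) : mob g z = numr g z / den g z := by
  rw [mob, ofComplex_apply_of_im_pos hz, UpperHalfPlane.coe_specialLinearGroup_apply]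
  simp [numr, den]

theorem mob_mul_den (g : SL(2, ℤ)) {z : ℂ} (hz : 0 < z.im) : mob g z * den g z = numr g z := by
  rw [mob_eq g hz, div_mul_cancel₀ _ (den_ne_zero g hz)]

theorem det_coe_GL (g : SL(2, ℤ)) : ((g : GL (Fin 2) ℝ).val.det : ℝ) = 1 := by
  have h1 : ((g : GL (Fin 2) ℝ).val) = (g.map (Int.castRingHom ℝ)).val := rfl
  rw [h1]
  exact (g.map (Int.castRingHom ℝ)).det_coe

theorem hasDerivAt_mob (g : SL(2, ℤ)) {z : ℂ} (hz : 0 < z.im) :
    HasDerivAt (mob g) (1 / den g z ^ 2) z := by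
  have h := (hasStrictDerivAt_smul (g := (g : GL (Fin 2) ℝ))
    (by rw [det_coe_GL]; exact one_pos) ⟨z, hz⟩).hasDerivAt
  have h2 : (((g : GL (Fin 2) ℝ).val.det : ℝ) : ℂ) = 1 := by rw [det_coe_GL]; simp
  rw [h2] at h
  have h3 : denom (g : GL (Fin 2) ℝ) ((⟨z, hz⟩ : ℍ) : ℂ) = den g z := denom_eq_den g z
  rw [h3] at h
  exact h

/-- Cocycle relation for the denominators. -/
theorem den_mul (g h : SL(2, ℤ)) {z : ℂ} (hz : 0 < z.im) :
    den (g * h) z = den g (mob h z) * den h z := by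
  have h1 := mob_mul_den h hz
  have hmul : ((g * h : SL(2, ℤ)) : Matrix (Fin 2) (Fin 2) ℤ) =
      (g : Matrix (Fin 2) (Fin 2) ℤ) * (h : Matrix (Fin 2) (Fin 2) ℤ) := by
    simp
  have e10 : (g * h) 1 0 = g 1 0 * h 0 0 + g 1 1 * h 1 0 := by
    rw [hmul, Matrix.mul_apply, Fin.sum_univ_two]
  have e11 : (g * h) 1 1 = g 1 0 * h 0 1 + g 1 1 * h 1 1 := by
    rw [hmul, Matrix.mul_apply, Fin.sum_univ_two]
  simp only [den, e10, e11]
  push_cast
  have : ((g 1 0 : ℤ) : ℂ) * mob h z * den h z = ((g 1 0 : ℤ) : ℂ) * numr h z := by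
    rw [mul_assoc, h1]
  simp only [den, numr] at this ⊢
  linear_combination -this

/-- Pull-back of the `1`-form `h dz` by `g`. -/
noncomputable def pull (g : SL(2, ℤ)) (h : ℂ → ℂ) : ℂ → ℂ := fun z => h (mob g z) / den g z ^ 2

theorem IsPrim.comp_mob {F h : ℂ → ℂ} (hF : IsPrim F h) (g : SL(2, ℤ)) :
    IsPrim (fun z => F (mob g z)) (pull g h) := by
  intro z hz
  have h1 := hF (mob g z) (mob_im_pos g z)
  have h2 := hasDerivAt_mob g hz
  have := HasDerivAt.comp z h1 h2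
  simpa [pull, Function.comp_def, div_eq_mul_inv] using this

theorem pull_mul (g γ : SL(2, ℤ)) (h : ℂ → ℂ) {z : ℂ} (hz : 0 < z.im) :
    pull g (pull γ h) z = pull (γ * g) h z := by
  simp only [pull]
  rw [mob_mul, den_mul γ g hz, mul_pow, div_div]

theorem pull_one (h : ℂ → ℂ) {z : ℂ} (hz : 0 < z.im) : pull 1 h z = h z := by
  simp [pull, mob_one hz, den]

/-- A `1`-form `h dz` on the upper half plane is *good* if it is holomorphic and all its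
`SL(2,ℤ)`-translates decay exponentially in vertical strips. -/
def Good (h : ℂ → ℂ) : Prop :=
  DifferentiableOn ℂ h {z : ℂ | 0 < z.im} ∧ ∀ g : SL(2, ℤ), StripDecay (pull g h)

theorem Good.exists_cuspVal {F h : ℂ → ℂ} (hh : Good h) (hF : IsPrim F h) (g : SL(2, ℤ)) :
    ∃ L, CuspVal F g L :=
  (hF.comp_mob g).exists_stripDecay_sub (hh.2 g)

theorem Good.good_pull {h : ℂ → ℂ} (hh : Good h) (γ : SL(2, ℤ)) : Good (pull γ h) := by
  refine ⟨?_, fun g => ?_⟩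
  · obtain ⟨F, hF⟩ := exists_isPrim hh.1
    have := hF.comp_mob γ
    intro z hz
    have h1 : DifferentiableOn ℂ (mob γ) {z : ℂ | 0 < z.im} :=
      fun w hw => (hasDerivAt_mob γ hw).differentiableAt.differentiableWithinAt
    have h2 : DifferentiableOn ℂ (fun z => h (mob γ z)) {z : ℂ | 0 < z.im} :=
      hh.1.comp h1 (fun w _ => mob_im_pos γ w)
    have h3 : DifferentiableOn ℂ (fun z => den γ z ^ 2) {z : ℂ | 0 < z.im} := by
      unfold den
      fun_prop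
    exact (h2.div h3 (fun w hw => pow_ne_zero 2 (den_ne_zero γ hw))) z hz
  · exact (hh.2 (γ * g)).congr (fun z hz => (pull_mul g γ h hz).symm)

theorem CuspVal.congr {F F' : ℂ → ℂ} {g : SL(2, ℤ)} {L : ℂ} (h : CuspVal F g L)
    (heq : ∀ z : ℂ, 0 < z.im → F z = F' z) : CuspVal F' g L := by
  refine StripDecay.congr h (fun z _ => ?_)
  rw [heq _ (mob_im_pos g z)]

theorem CuspVal.add {F₁ F₂ : ℂ → ℂ} {g : SL(2, ℤ)} {L₁ L₂ : ℂ} (h1 : CuspVal F₁ g L₁)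
    (h2 : CuspVal F₂ g L₂) : CuspVal (fun z => F₁ z + F₂ z) g (L₁ + L₂) := by
  refine StripDecay.congr (StripDecay.add h1 h2) (fun z _ => ?_)
  ring

theorem CuspVal.const_mul {F : ℂ → ℂ} {g : SL(2, ℤ)} {L : ℂ} (h : CuspVal F g L) (a : ℂ) :
    CuspVal (fun z => a * F z) g (a * L) := by
  refine StripDecay.congr (StripDecay.const_mul h a) (fun z _ => ?_)
  ring

theorem CuspVal.sub_const {F : ℂ → ℂ} {g : SL(2, ℤ)} {L : ℂ} (h : CuspVal F g L) (a : ℂ) :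
    CuspVal (fun z => F z - a) g (L - a) := by
  refine StripDecay.congr h (fun z _ => ?_)
  ring

theorem CuspVal.zero (g : SL(2, ℤ)) : CuspVal (fun _ => (0 : ℂ)) g 0 := by
  refine StripDecay.congr StripDecay.zero (fun z _ => ?_)
  ring

theorem CuspVal.sum {ι : Type*} (s : Finset ι) {F : ι → ℂ → ℂ} {g : SL(2, ℤ)} {L : ι → ℂ}
    (h : ∀ i ∈ s, CuspVal (F i) g (L i)) :
    CuspVal (fun z => ∑ i ∈ s, F i z) g (∑ i ∈ s, L i) := by
  refine StripDecay.congr (StripDecay.sum s h) (fun z _ => ?_)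
  rw [Finset.sum_sub_distrib]

theorem CuspVal.comp_mob {F : ℂ → ℂ} {γ g : SL(2, ℤ)} {L : ℂ} (h : CuspVal F (γ * g) L) :
    CuspVal (fun z => F (mob γ z)) g L := by
  refine StripDecay.congr h (fun z _ => ?_)
  rw [mob_mul]

theorem CuspVal.of_comp_mob {F : ℂ → ℂ} {γ g : SL(2, ℤ)} {L : ℂ}
    (h : CuspVal (fun z => F (mob γ z)) g L) : CuspVal F (γ * g) L := by
  refine StripDecay.congr h (fun z _ => ?_)
  rw [mob_mul]

/-- `v` is the period `∫_{i∞}^{g i∞} h dz`. -/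
def HasPer (h : ℂ → ℂ) (g : SL(2, ℤ)) (v : ℂ) : Prop :=
  ∃ (F : ℂ → ℂ) (L₁ L₂ : ℂ), IsPrim F h ∧ CuspVal F g L₁ ∧ CuspVal F 1 L₂ ∧ v = L₁ - L₂

theorem HasPer.unique {h : ℂ → ℂ} {g : SL(2, ℤ)} {v v' : ℂ} (hv : HasPer h g v)
    (hv' : HasPer h g v') : v = v' := by
  obtain ⟨F, L₁, L₂, hF, h1, h2, rfl⟩ := hv
  obtain ⟨F', L₁', L₂', hF', h1', h2', rfl⟩ := hv'
  obtain ⟨c, hc⟩ := hF.unique hF'
  have e1 : CuspVal F g (L₁' + c) := by
    refine StripDecay.congr h1' (fun z _ => ?_)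
    rw [hc _ (mob_im_pos g z)]
    ring
  have e2 : CuspVal F 1 (L₂' + c) := by
    refine StripDecay.congr h2' (fun z _ => ?_)
    rw [hc _ (mob_im_pos 1 z)]
    ring
  rw [h1.unique e1, h2.unique e2]
  ring

/-- The period `∫_{i∞}^{g i∞} h dz` (zero if it does not make sense). -/
noncomputable def per (h : ℂ → ℂ) (g : SL(2, ℤ)) : ℂ :=
  open Classical in if H : ∃ v, HasPer h g v then H.choose else 0

theorem HasPer.per_eq {h : ℂ → ℂ} {g : SL(2, ℤ)} {v : ℂ} (hv : HasPer h g v) : per h g = v := by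
  have H : ∃ v, HasPer h g v := ⟨v, hv⟩
  rw [per, dif_pos H]
  exact H.choose_spec.unique hv

theorem Good.hasPer {h : ℂ → ℂ} (hh : Good h) (g : SL(2, ℤ)) : HasPer h g (per h g) := by
  obtain ⟨F, hF⟩ := exists_isPrim hh.1
  obtain ⟨L₁, h1⟩ := hh.exists_cuspVal hF g
  obtain ⟨L₂, h2⟩ := hh.exists_cuspVal hF 1
  have : HasPer h g (L₁ - L₂) := ⟨F, L₁, L₂, hF, h1, h2, rfl⟩
  rw [this.per_eq]
  exact this

theorem HasPer.congr {h h' : ℂ → ℂ} {g : SL(2, ℤ)} {v : ℂ} (hv : HasPer h g v)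
    (heq : ∀ z : ℂ, 0 < z.im → h z = h' z) : HasPer h' g v := by
  obtain ⟨F, L₁, L₂, hF, h1, h2, rfl⟩ := hv
  exact ⟨F, L₁, L₂, hF.congr heq, h1, h2, rfl⟩

theorem HasPer.add {h₁ h₂ : ℂ → ℂ} {g : SL(2, ℤ)} {v₁ v₂ : ℂ} (hv₁ : HasPer h₁ g v₁)
    (hv₂ : HasPer h₂ g v₂) : HasPer (fun z => h₁ z + h₂ z) g (v₁ + v₂) := by
  obtain ⟨F, L₁, L₂, hF, h1, h2, rfl⟩ := hv₁
  obtain ⟨F', L₁', L₂', hF', h1', h2', rfl⟩ := hv₂
  exact ⟨fun z => F z + F' z, L₁ + L₁', L₂ + L₂', hF.add hF', h1.add h1', h2.add h2', by ring⟩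

theorem HasPer.const_mul {h : ℂ → ℂ} {g : SL(2, ℤ)} {v : ℂ} (hv : HasPer h g v) (a : ℂ) :
    HasPer (fun z => a * h z) g (a * v) := by
  obtain ⟨F, L₁, L₂, hF, h1, h2, rfl⟩ := hv
  exact ⟨fun z => a * F z, a * L₁, a * L₂, hF.const_mul a, h1.const_mul a, h2.const_mul a,
    by ring⟩

theorem HasPer.zero (g : SL(2, ℤ)) : HasPer (fun _ => (0 : ℂ)) g 0 :=
  ⟨fun _ => 0, 0, 0, IsPrim.zero, CuspVal.zero g, CuspVal.zero 1, by ring⟩

theorem HasPer.sum {ι : Type*} (s : Finset ι) {h : ι → ℂ → ℂ} {g : SL(2, ℤ)} {v : ι → ℂ}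
    (hv : ∀ i ∈ s, HasPer (h i) g (v i)) :
    HasPer (fun z => ∑ i ∈ s, h i z) g (∑ i ∈ s, v i) := by
  classical
  induction s using Finset.induction_on with
  | empty => simpa using HasPer.zero g
  | insert a s ha ih =>
    have h1 := hv a (Finset.mem_insert_self a s)
    have h2 := ih (fun i hi => hv i (Finset.mem_insert_of_mem hi))
    have := h1.add h2
    simp only [Finset.sum_insert ha]
    exact this

/-- The period along the trivial path is zero. -/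
theorem HasPer.one {h : ℂ → ℂ} {v : ℂ} (hv : HasPer h 1 v) : v = 0 := by
  obtain ⟨F, L₁, L₂, hF, h1, h2, rfl⟩ := hv
  rw [h1.unique h2, sub_self]

/-- Cocycle relation for periods. -/
theorem Good.hasPer_cocycle {h : ℂ → ℂ} (hh : Good h) (γ g : SL(2, ℤ)) :
    per h (γ * g) = per h γ + per (pull γ h) g := by
  obtain ⟨F, hF⟩ := exists_isPrim hh.1
  obtain ⟨L₁, h1⟩ := hh.exists_cuspVal hF (γ * g)
  obtain ⟨L₂, h2⟩ := hh.exists_cuspVal hF γ
  obtain ⟨L₃, h3⟩ := hh.exists_cuspVal hF 1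
  have e1 : HasPer h (γ * g) (L₁ - L₃) := ⟨F, L₁, L₃, hF, h1, h3, rfl⟩
  have e2 : HasPer h γ (L₂ - L₃) := ⟨F, L₂, L₃, hF, h2, h3, rfl⟩
  have h2' : CuspVal F (γ * 1) L₂ := by simpa using h2
  have e3 : HasPer (pull γ h) g (L₁ - L₂) :=
    ⟨fun z => F (mob γ z), L₁, L₂, hF.comp_mob γ, h1.comp_mob, h2'.comp_mob, rfl⟩
  rw [e1.per_eq, e2.per_eq, e3.per_eq]
  ring

end Fermat.Agent.S22
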