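import Mathlib
import Fermat.Prelude.Def_CuspForm_HeckeAlgebra
import Fermat.Prelude.Thm_Subgroup_IsArithmetic_exists_nat_mem_strictPeriods_conj
import Fermat.Agent.S22.Mob

/-!
# S22: cusp forms on `Γ₀(N)` give good `1`-forms
-/

set_option autoImplicit false

open Complex Filter Topology Set UpperHalfPlane ModularForm Asymptotics
open scoped MatrixGroups ModularForm

namespace Fermat.Agent.S22

variable {N : ℕ} {k : ℤ}

/-- The function on `ℂ` attached to a cusp form. -/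
noncomputable def toC (f : CuspForm (CongruenceSubgroup.Gamma0 N) k) : ℂ → ℂ :=
  fun z => f (ofComplex z)

theorem toC_add (f₁ f₂ : CuspForm (CongruenceSubgroup.Gamma0 N) k) (z : ℂ) :
    toC (f₁ + f₂) z = toC f₁ z + toC f₂ z := rfl

theorem toC_smul (a : ℂ) (f : CuspForm (CongruenceSubgroup.Gamma0 N) k) (z : ℂ) :
    toC (a • f) z = a * toC f z := rfl

theorem differentiableOn_toC (f : CuspForm (CongruenceSubgroup.Gamma0 N) k) :
    DifferentiableOn ℂ (toC f) {z : ℂ | 0 < z.im} :=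
  UpperHalfPlane.mdifferentiable_iff.mp (CuspFormClass.holo f)

/-- Uniform exponential decay of all `SL(2,ℤ)`-translates of a cusp form. -/
theorem exists_slash_decay [NeZero N] (f : CuspForm (CongruenceSubgroup.Gamma0 N) k) (g : SL(2, ℤ)) :
    ∃ C c A : ℝ, 0 < c ∧ ∀ τ : ℍ, A ≤ τ.im → ‖(⇑f ∣[k] g) τ‖ ≤ C * Real.exp (-c * τ.im) := by
  obtain ⟨M, hM, hper⟩ := Subgroup.IsArithmetic.exists_nat_mem_strictPeriods_conj
    (CongruenceSubgroup.Gamma0 N : Subgroup (GL (Fin 2) ℝ))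
  have hM' : (0 : ℝ) < M := by exact_mod_cast hM
  have h1 := hper g⁻¹
  have h2 : ConjAct.toConjAct (Matrix.SpecialLinearGroup.mapGL ℝ g⁻¹) =
      ConjAct.toConjAct ((Matrix.SpecialLinearGroup.mapGL ℝ g : GL (Fin 2) ℝ)⁻¹) := by
    rw [map_inv]
  rw [h2] at h1
  have h3 := CuspFormClass.exp_decay_atImInfty
    (CuspForm.translate f (Matrix.SpecialLinearGroup.mapGL ℝ g : GL (Fin 2) ℝ)) hM' h1
  obtain ⟨C, hC⟩ := h3.bound
  rw [Filter.Eventually, atImInfty_mem] at hC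
  obtain ⟨A, hA⟩ := hC
  refine ⟨C, 2 * Real.pi / M, A, by positivity, fun τ hτ => ?_⟩
  have := hA τ hτ
  simp only [Set.mem_ofPred_eq] at this
  rw [Real.norm_of_nonneg (Real.exp_pos _).le] at this
  have e1 : (⇑f ∣[k] g) τ =
      (CuspForm.translate f (Matrix.SpecialLinearGroup.mapGL ℝ g : GL (Fin 2) ℝ)) τ := rfl
  have e2 : -(2 * Real.pi / M) * τ.im = -2 * Real.pi * τ.im / M := by ring
  rw [e1, e2]
  exact this

/-- Values of translates in terms of `toC`. -/
theorem toC_mob (f : CuspForm (CongruenceSubgroup.Gamma0 N) k) (g : SL(2, ℤ)) {z : ℂ}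
    (hz : 0 < z.im) :
    toC f (mob g z) * den g z ^ (-k) = (⇑f ∣[k] g) ⟨z, hz⟩ := by
  rw [SL_slash_apply, toC, ofComplex_mob, ofComplex_apply_of_im_pos hz, denom_eq_den]

/-- Modularity in terms of `toC`. -/
theorem toC_mob_of_mem (f : CuspForm (CongruenceSubgroup.Gamma0 N) k) {γ : SL(2, ℤ)}
    (hγ : γ ∈ CongruenceSubgroup.Gamma0 N) {z : ℂ} (hz : 0 < z.im) :
    toC f (mob γ z) = den γ z ^ k * toC f z := by
  have h1 := toC_mob f γ hz
  have h2 : (⇑f ∣[k] γ) = ⇑f := by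
    have : (Matrix.SpecialLinearGroup.mapGL ℝ γ : GL (Fin 2) ℝ) ∈
        (CongruenceSubgroup.Gamma0 N : Subgroup (GL (Fin 2) ℝ)) := ⟨γ, hγ, rfl⟩
    exact SlashInvariantFormClass.slash_action_eq f _ this
  rw [h2] at h1
  have h3 : toC f z = f ⟨z, hz⟩ := by rw [toC, ofComplex_apply_of_im_pos hz]
  rw [h3, ← h1, mul_comm, mul_assoc, ← zpow_add₀ (den_ne_zero γ hz)]
  simp

theorem stripDecay_toC_mob [NeZero N] (f : CuspForm (CongruenceSubgroup.Gamma0 N) k) (g : SL(2, ℤ)) :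
    StripDecay (fun z => toC f (mob g z) * den g z ^ (-k)) := by
  obtain ⟨C, c, A, hc, hb⟩ := exists_slash_decay f g
  intro R
  refine ⟨C, c, max A 1, hc, fun z _ hzA => ?_⟩
  have hz : 0 < z.im := by
    have := (le_max_right A 1).trans hzA
    linarith
  have := hb ⟨z, hz⟩ ((le_max_left A 1).trans hzA)
  rw [← toC_mob f g hz] at this
  exact this

end Fermat.Agent.S22
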