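import Mathlib

/-!
# S22, part P: decaying primitives

For a function `g : ℂ → ℂ` which is holomorphic on the upper half-plane, periodic of period `h > 0`
and tends to `0` at `i∞`, we construct a primitive `G` with the same three properties.
The construction goes through the cusp function: `g = H ∘ q`, `H 0 = 0`; take a primitive `K` of
`dslope H 0` on the unit disc with `K 0 = 0` and put `G = (h / 2πi) • K ∘ q`.
-/

set_option autoImplicit false

noncomputable section

namespace Fermat.Agent.S22.Sep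

open Complex Filter Function
open scoped Topology Real

/-- Holomorphic on the upper half-plane, periodic of period `h`, zero at `i∞`. -/
structure DecayC (h : ℝ) (g : ℂ → ℂ) : Prop where
  diff : ∀ z : ℂ, 0 < z.im → DifferentiableAt ℂ g z
  per : Function.Periodic g h
  zero : Tendsto g (comap im atTop) (𝓝 0)

theorem eventually_im_pos : ∀ᶠ z : ℂ in comap im atTop, 0 < z.im :=
  (eventually_gt_atTop (0 : ℝ)).comap im

theorem DecayC.eventually_diff {h : ℝ} {g : ℂ → ℂ} (hg : DecayC h g) :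
    ∀ᶠ z in comap im atTop, DifferentiableAt ℂ g z :=
  eventually_im_pos.mono fun z hz => hg.diff z hz

theorem DecayC.differentiableOn_cuspFunction {h : ℝ} (hh : 0 < h) {g : ℂ → ℂ} (hg : DecayC h g) :
    DifferentiableOn ℂ (Function.Periodic.cuspFunction h g) (Metric.ball 0 1) := by
  intro q hq
  refine DifferentiableAt.differentiableWithinAt ?_
  rcases eq_or_ne q 0 with rfl | hq0
  · exact Function.Periodic.differentiableAt_cuspFunction_zero hh hg.per hg.eventually_diff
      (ZeroAtFilter.boundedAtFilter hg.zero)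
  · have hz : 0 < (Function.Periodic.invQParam h q).im := by
      rw [Function.Periodic.im_invQParam]
      have hq1 : ‖q‖ < 1 := by simpa using hq
      have hlog : Real.log ‖q‖ < 0 := Real.log_neg (norm_pos_iff.mpr hq0) hq1
      have hc : -h / (2 * π) < 0 := by
        apply div_neg_of_neg_of_pos <;> [linarith; positivity]
      exact mul_pos_of_neg_of_neg hc hlog
    have := Function.Periodic.differentiableAt_cuspFunction hh.ne' hg.per (hg.diff _ hz)
    rwa [Function.Periodic.qParam_right_inv hh.ne' hq0] at this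

theorem hasDerivAt_qParam (h : ℝ) (z : ℂ) :
    HasDerivAt (Function.Periodic.qParam h) (Function.Periodic.qParam h z * (2 * π * I / h)) z := by
  unfold Function.Periodic.qParam
  simpa only [id_eq, mul_one] using (((hasDerivAt_id z).const_mul _).div_const _).cexp

theorem qParam_periodic {h : ℝ} (hh : h ≠ 0) : Function.Periodic (Function.Periodic.qParam h) h := by
  intro z
  unfold Function.Periodic.qParam
  have hh' : (h : ℂ) ≠ 0 := by exact_mod_cast hh
  have : 2 * (π : ℂ) * I * (z + h) / h = 2 * π * I * z / h + 2 * π * I := by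
    field_simp
  rw [this, Complex.exp_add, Complex.exp_two_pi_mul_I, mul_one]

/-- **Lemma P** (on `ℂ`): existence of a decaying primitive. -/
theorem DecayC.exists_primitive {h : ℝ} (hh : 0 < h) {g : ℂ → ℂ} (hg : DecayC h g) :
    ∃ G : ℂ → ℂ, DecayC h G ∧ ∀ z : ℂ, 0 < z.im → HasDerivAt G (g z) z := by
  set H := Function.Periodic.cuspFunction h g with hH
  have hHd : DifferentiableOn ℂ H (Metric.ball 0 1) := hg.differentiableOn_cuspFunction hh
  have hH0 : H 0 = 0 := Function.Periodic.cuspFunction_zero_of_zero_at_inf hh hg.zero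
  have hball : Metric.ball (0 : ℂ) 1 ∈ 𝓝 (0 : ℂ) := Metric.ball_mem_nhds _ one_pos
  have hDd : DifferentiableOn ℂ (dslope H 0) (Metric.ball 0 1) :=
    (Complex.differentiableOn_dslope hball).mpr hHd
  obtain ⟨K, hK0, hK⟩ := (hDd.isExactOn_ball).with_val_at 0 0
  have hhC : (h : ℂ) ≠ 0 := by exact_mod_cast hh.ne'
  have hpi : (2 * (π : ℂ) * I) ≠ 0 := Complex.two_pi_I_ne_zero
  have hderiv : ∀ z : ℂ, 0 < z.im →
      HasDerivAt (fun z => (h / (2 * π * I)) * K (Function.Periodic.qParam h z)) (g z) z := by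
    intro z hz
    have hq : Function.Periodic.qParam h z ∈ Metric.ball (0 : ℂ) 1 := by
      simpa using Function.Periodic.norm_qParam_lt_one hh hz
    have h1 := (hK _ hq).comp z (hasDerivAt_qParam h z)
    have h2 := h1.const_mul ((h : ℂ) / (2 * π * I))
    have hq0 : Function.Periodic.qParam h z ≠ 0 := Function.Periodic.qParam_ne_zero z
    have hval : (h : ℂ) / (2 * π * I) * (dslope H 0 (Function.Periodic.qParam h z) *
        (Function.Periodic.qParam h z * (2 * π * I / h))) = g z := by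
      have hHq : H (Function.Periodic.qParam h z) = g z :=
        Function.Periodic.eq_cuspFunction hh.ne' hg.per z
      rw [dslope_of_ne _ hq0, slope_def_field, hH0, sub_zero, sub_zero, hHq]
      field_simp
    rw [hval] at h2
    exact h2
  refine ⟨fun z => (h / (2 * π * I)) * K (Function.Periodic.qParam h z), ⟨?_, ?_, ?_⟩, hderiv⟩
  · intro z hz
    exact (hderiv z hz).differentiableAt
  · intro z
    simp only
    rw [qParam_periodic hh.ne' z]
  · have hKc : ContinuousAt K 0 := (hK 0 (Metric.mem_ball_self one_pos)).continuousAt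
    have hq : Tendsto (Function.Periodic.qParam h) (comap im atTop) (𝓝 0) :=
      (Function.Periodic.qParam_tendsto hh).mono_right nhdsWithin_le_nhds
    have h1 : Tendsto (fun z => K (Function.Periodic.qParam h z)) (comap im atTop) (𝓝 0) := by
      have := hKc.tendsto.comp hq
      rwa [hK0] at this
    have h2 := h1.const_mul ((h : ℂ) / (2 * π * I))
    rwa [mul_zero] at h2

/-! ### Functions on the upper half-plane -/

open UpperHalfPlane

theorem isPreconnected_uhp : IsPreconnected {z : ℂ | 0 < z.im} :=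
  (convex_halfSpace_im_gt 0).isPreconnected

/-- A function with vanishing derivative on the upper half-plane is constant there. -/
theorem eq_of_hasDerivAt_zero {F : ℂ → ℂ} (hF : ∀ z : ℂ, 0 < z.im → HasDerivAt F 0 z)
    {z w : ℂ} (hz : 0 < z.im) (hw : 0 < w.im) : F z = F w := by
  refine IsOpen.is_const_of_deriv_eq_zero isOpen_upperHalfPlaneSet isPreconnected_uhp
    (fun x hx => (hF x hx).differentiableAt.differentiableWithinAt) (fun x hx => ?_) hz hw
  exact (hF x hx).deriv

/-- Holomorphic on `ℍ`, periodic of period `h`, zero at `i∞`. -/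
structure DecayH (h : ℝ) (g : ℍ → ℂ) : Prop where
  holo : MDifferentiable (modelWithCornersSelf ℂ ℂ) (modelWithCornersSelf ℂ ℂ) g
  per : Function.Periodic (g ∘ ofComplex) h
  zero : IsZeroAtImInfty g

theorem DecayH.decayC {h : ℝ} {g : ℍ → ℂ} (hg : DecayH h g) : DecayC h (g ∘ ofComplex) where
  diff z hz := (UpperHalfPlane.mdifferentiable_iff.mp hg.holo z hz).differentiableAt
    (isOpen_upperHalfPlaneSet.mem_nhds hz)
  per := hg.per
  zero := hg.zero.comp tendsto_comap_im_ofComplex

/-- Restrict a function on `ℂ` to `ℍ`. -/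
def restr (G : ℂ → ℂ) : ℍ → ℂ := fun τ => G τ

theorem restr_comp_ofComplex_of_im_pos (G : ℂ → ℂ) {z : ℂ} (hz : 0 < z.im) :
    (restr G ∘ ofComplex) z = G z := by
  simp [restr, ofComplex_apply_of_im_pos hz]

theorem restr_comp_ofComplex_eventuallyEq (G : ℂ → ℂ) {z : ℂ} (hz : 0 < z.im) :
    (restr G ∘ ofComplex) =ᶠ[𝓝 z] G := by
  filter_upwards [isOpen_upperHalfPlaneSet.mem_nhds hz] with x hx
  exact restr_comp_ofComplex_of_im_pos G hx

theorem DecayC.decayH {h : ℝ} {G : ℂ → ℂ} (hG : DecayC h G) : DecayH h (restr G) where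
  holo := by
    rw [UpperHalfPlane.mdifferentiable_iff]
    intro z hz
    exact ((hG.diff z hz).congr_of_eventuallyEq
      (restr_comp_ofComplex_eventuallyEq G hz)).differentiableWithinAt
  per := by
    intro z
    by_cases hz : 0 < z.im
    · have hz' : 0 < (z + (h : ℂ)).im := by simpa using hz
      rw [restr_comp_ofComplex_of_im_pos G hz, restr_comp_ofComplex_of_im_pos G hz']
      exact hG.per z
    · have hz1 : z.im ≤ 0 := not_lt.mp hz
      have hz' : (z + (h : ℂ)).im ≤ 0 := by simpa using hz1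
      exact comp_ofComplex_of_im_le_zero _ _ _ hz' hz1
  zero := hG.zero.comp tendsto_coe_atImInfty

theorem hasDerivAt_restr_comp_ofComplex {G : ℂ → ℂ} {c : ℂ} {z : ℂ} (hz : 0 < z.im)
    (hG : HasDerivAt G c z) : HasDerivAt (restr G ∘ ofComplex) c z :=
  hG.congr_of_eventuallyEq (restr_comp_ofComplex_eventuallyEq G hz)

/-- `G` is a primitive of `g` on `ℍ`. -/
def IsPrimH (G g : ℍ → ℂ) : Prop := ∀ τ : ℍ, HasDerivAt (G ∘ ofComplex) (g τ) τ

/-- **Lemma P** (on `ℍ`): existence of a decaying primitive, with the same period. -/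
theorem DecayH.exists_primitive {h : ℝ} (hh : 0 < h) {g : ℍ → ℂ} (hg : DecayH h g) :
    ∃ G : ℍ → ℂ, DecayH h G ∧ IsPrimH G g := by
  obtain ⟨G, hG, hGd⟩ := hg.decayC.exists_primitive hh
  refine ⟨restr G, hG.decayH, fun τ => ?_⟩
  have := hasDerivAt_restr_comp_ofComplex τ.im_pos (hGd τ τ.im_pos)
  simpa using this

theorem IsPrimH.add {G₁ G₂ g₁ g₂ : ℍ → ℂ} (h₁ : IsPrimH G₁ g₁) (h₂ : IsPrimH G₂ g₂) :
    IsPrimH (G₁ + G₂) (g₁ + g₂) := fun τ => (h₁ τ).add (h₂ τ)

theorem IsPrimH.sub {G₁ G₂ g₁ g₂ : ℍ → ℂ} (h₁ : IsPrimH G₁ g₁) (h₂ : IsPrimH G₂ g₂) :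
    IsPrimH (G₁ - G₂) (g₁ - g₂) := fun τ => (h₁ τ).sub (h₂ τ)

theorem IsPrimH.const_smul {G g : ℍ → ℂ} (h : IsPrimH G g) (c : ℂ) :
    IsPrimH (c • G) (c • g) := fun τ => (h τ).const_smul c

/-- A function on `ℍ` whose derivative vanishes is constant. -/
theorem IsPrimH.eq_of_zero {G : ℍ → ℂ} (hG : IsPrimH G 0) (τ τ' : ℍ) : G τ = G τ' := by
  have h := eq_of_hasDerivAt_zero (F := G ∘ ofComplex) (fun z hz => by
    have := hG ⟨z, hz⟩
    simpa using this) τ.im_pos τ'.im_pos
  simpa using h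

/-- A primitive of `0` which tends to zero at `i∞` is zero. -/
theorem IsPrimH.eq_zero_of_isZeroAtImInfty {G : ℍ → ℂ} (hG : IsPrimH G 0)
    (hz : IsZeroAtImInfty G) : G = 0 := by
  funext τ
  have hconst : G = fun _ => G τ := funext fun τ' => hG.eq_of_zero τ' τ
  have h1 : Tendsto G atImInfty (𝓝 (G τ)) := by
    rw [hconst]
    exact tendsto_const_nhds
  exact tendsto_nhds_unique h1 hz

/-- Uniqueness of decaying primitives. -/
theorem IsPrimH.unique {G₁ G₂ g : ℍ → ℂ} (h₁ : IsPrimH G₁ g) (h₂ : IsPrimH G₂ g)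
    (hz₁ : IsZeroAtImInfty G₁) (hz₂ : IsZeroAtImInfty G₂) : G₁ = G₂ := by
  have h : IsPrimH (G₁ - G₂) 0 := by simpa using h₁.sub h₂
  have hz : IsZeroAtImInfty (G₁ - G₂) := by
    have h12 : Tendsto (fun x => G₁ x - G₂ x) atImInfty (𝓝 (0 - 0)) :=
      Filter.Tendsto.sub hz₁ hz₂
    rw [sub_zero] at h12
    exact h12
  have := h.eq_zero_of_isZeroAtImInfty hz
  exact sub_eq_zero.mp this

/-- The class `𝒟`: holomorphic, periodic of some positive integer period, zero at `i∞`. -/
def Decay (g : ℍ → ℂ) : Prop := ∃ h : ℕ, 0 < h ∧ DecayH (h : ℝ) g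

theorem DecayH.decay {h : ℕ} (hh : 0 < h) {g : ℍ → ℂ} (hg : DecayH (h : ℝ) g) : Decay g :=
  ⟨h, hh, hg⟩

theorem Decay.holo {g : ℍ → ℂ} (hg : Decay g) :
    MDifferentiable (modelWithCornersSelf ℂ ℂ) (modelWithCornersSelf ℂ ℂ) g := by
  obtain ⟨h, -, hg⟩ := hg
  exact hg.holo

theorem Decay.zero {g : ℍ → ℂ} (hg : Decay g) : IsZeroAtImInfty g := by
  obtain ⟨h, -, hg⟩ := hg
  exact hg.zero

open Classical in
/-- The decaying primitive of a function in the class `𝒟` (junk value `0` otherwise). -/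
def prim (g : ℍ → ℂ) : ℍ → ℂ :=
  if hg : Decay g then
    (hg.choose_spec.2.exists_primitive (Nat.cast_pos.mpr hg.choose_spec.1)).choose
  else 0

theorem prim_spec {g : ℍ → ℂ} (hg : Decay g) :
    DecayH (hg.choose : ℝ) (prim g) ∧ IsPrimH (prim g) g := by
  unfold prim
  rw [dif_pos hg]
  exact (hg.choose_spec.2.exists_primitive (Nat.cast_pos.mpr hg.choose_spec.1)).choose_spec

theorem isPrim_prim {g : ℍ → ℂ} (hg : Decay g) : IsPrimH (prim g) g := (prim_spec hg).2

theorem Decay.prim {g : ℍ → ℂ} (hg : Decay g) : Decay (prim g) :=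
  ⟨hg.choose, hg.choose_spec.1, (prim_spec hg).1⟩

theorem prim_eq_of_isPrim {G g : ℍ → ℂ} (hg : Decay g) (hG : IsPrimH G g)
    (hz : IsZeroAtImInfty G) : prim g = G :=
  (isPrim_prim hg).unique hG hg.prim.zero hz

/-- The decaying primitive has every period of the function. -/
theorem DecayH.prim {h : ℝ} (hh : 0 < h) {g : ℍ → ℂ} (hg : DecayH h g) (hg' : Decay g) :
    DecayH h (prim g) := by
  obtain ⟨G, hG, hGp⟩ := hg.exists_primitive hh
  rw [prim_eq_of_isPrim hg' hGp hG.zero]
  exact hG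

theorem DecayH.add {h : ℝ} {f g : ℍ → ℂ} (hf : DecayH h f) (hg : DecayH h g) :
    DecayH h (f + g) where
  holo := hf.holo.add hg.holo
  per := fun z => by
    have h1 := hf.per z
    have h2 := hg.per z
    simp only [Function.comp_apply, Pi.add_apply] at h1 h2 ⊢
    rw [h1, h2]
  zero := hf.zero.add hg.zero

theorem DecayH.const_smul {h : ℝ} {f : ℍ → ℂ} (hf : DecayH h f) (c : ℂ) :
    DecayH h (c • f) where
  holo := hf.holo.const_smul c
  per := fun z => by
    have h1 := hf.per z
    simp only [Function.comp_apply, Pi.smul_apply] at h1 ⊢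
    rw [h1]
  zero := hf.zero.smul c

theorem DecayH.of_nat_mul {h : ℝ} {f : ℍ → ℂ} (hf : DecayH h f) (n : ℕ) :
    DecayH ((n : ℝ) * h) f where
  holo := hf.holo
  per := by
    have := hf.per.nat_mul n
    simpa using this
  zero := hf.zero

theorem Decay.add {f g : ℍ → ℂ} (hf : Decay f) (hg : Decay g) : Decay (f + g) := by
  obtain ⟨h₁, hh₁, hf⟩ := hf
  obtain ⟨h₂, hh₂, hg⟩ := hg
  refine ⟨h₂ * h₁, Nat.mul_pos hh₂ hh₁, ?_⟩
  have e1 : ((h₂ * h₁ : ℕ) : ℝ) = (h₂ : ℝ) * h₁ := by push_cast; ring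
  have e2 : ((h₂ * h₁ : ℕ) : ℝ) = (h₁ : ℝ) * h₂ := by push_cast; ring
  have h1 := hf.of_nat_mul h₂
  have h2 := hg.of_nat_mul h₁
  rw [← e1] at h1
  rw [← e2] at h2
  exact h1.add h2

theorem Decay.const_smul {f : ℍ → ℂ} (hf : Decay f) (c : ℂ) : Decay (c • f) := by
  obtain ⟨h, hh, hf⟩ := hf
  exact ⟨h, hh, hf.const_smul c⟩

theorem Decay.sum {ι : Type*} (s : Finset ι) {f : ι → ℍ → ℂ} (hf : ∀ i ∈ s, Decay (f i)) :
    Decay (∑ i ∈ s, f i) := by
  classical
  induction s using Finset.induction_on with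
  | empty =>
    refine ⟨1, one_pos, ⟨?_, ?_, ?_⟩⟩
    · rw [Finset.sum_empty]
      exact (mdifferentiable_const : MDifferentiable (modelWithCornersSelf ℂ ℂ)
        (modelWithCornersSelf ℂ ℂ) (fun _ : ℍ => (0 : ℂ)))
    · intro z; simp
    · rw [Finset.sum_empty]
      exact (tendsto_const_nhds : Tendsto (fun _ : ℍ => (0 : ℂ)) atImInfty (𝓝 0))
  | insert a s ha ih =>
    rw [Finset.sum_insert ha]
    exact (hf a (Finset.mem_insert_self a s)).add
      (ih fun i hi => hf i (Finset.mem_insert_of_mem hi))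

theorem prim_add {f g : ℍ → ℂ} (hf : Decay f) (hg : Decay g) :
    prim (f + g) = prim f + prim g :=
  prim_eq_of_isPrim (hf.add hg) ((isPrim_prim hf).add (isPrim_prim hg))
    (hf.prim.zero.add hg.prim.zero)

theorem prim_smul {f : ℍ → ℂ} (hf : Decay f) (c : ℂ) : prim (c • f) = c • prim f :=
  prim_eq_of_isPrim (hf.const_smul c) ((isPrim_prim hf).const_smul c) (hf.prim.zero.smul c)

/-- Iterated decaying primitives. -/
def iprim (n : ℕ) (g : ℍ → ℂ) : ℍ → ℂ := prim^[n] g

@[simp] theorem iprim_zero (g : ℍ → ℂ) : iprim 0 g = g := rfl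

theorem iprim_succ (n : ℕ) (g : ℍ → ℂ) : iprim (n + 1) g = prim (iprim n g) :=
  Function.iterate_succ_apply' prim n g

theorem Decay.iprim {g : ℍ → ℂ} (hg : Decay g) (n : ℕ) : Decay (iprim n g) := by
  induction n with
  | zero => exact hg
  | succ n ih => rw [iprim_succ]; exact ih.prim

theorem DecayH.iprim {h : ℕ} (hh : 0 < h) {g : ℍ → ℂ} (hg : DecayH (h : ℝ) g) (n : ℕ) :
    DecayH (h : ℝ) (iprim n g) := by
  induction n with
  | zero => exact hg
  | succ n ih => rw [iprim_succ]; exact ih.prim (Nat.cast_pos.mpr hh) (ih.decay hh)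

theorem isPrim_iprim_succ {g : ℍ → ℂ} (hg : Decay g) (n : ℕ) :
    IsPrimH (iprim (n + 1) g) (iprim n g) := by
  rw [iprim_succ]
  exact isPrim_prim (hg.iprim n)

theorem iprim_add {f g : ℍ → ℂ} (hf : Decay f) (hg : Decay g) (n : ℕ) :
    iprim n (f + g) = iprim n f + iprim n g := by
  induction n with
  | zero => rfl
  | succ n ih => rw [iprim_succ, iprim_succ, iprim_succ, ih, prim_add (hf.iprim n) (hg.iprim n)]

theorem iprim_smul {f : ℍ → ℂ} (hf : Decay f) (c : ℂ) (n : ℕ) :
    iprim n (c • f) = c • iprim n f := by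
  induction n with
  | zero => rfl
  | succ n ih => rw [iprim_succ, iprim_succ, ih, prim_smul (hf.iprim n)]

/-- If an iterated decaying primitive vanishes, so does the function. -/
theorem eq_zero_of_iprim_eq_zero {g : ℍ → ℂ} (hg : Decay g) (n : ℕ) (h : iprim n g = 0) :
    g = 0 := by
  induction n with
  | zero => exact h
  | succ n ih =>
    apply ih
    have hp := isPrim_iprim_succ hg n
    rw [h] at hp
    funext τ
    have h0 : HasDerivAt ((0 : ℍ → ℂ) ∘ ofComplex) 0 (τ : ℂ) := by
      have : ((0 : ℍ → ℂ) ∘ ofComplex) = fun _ => (0 : ℂ) := rfl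
      rw [this]
      exact hasDerivAt_const _ _
    exact (hp τ).unique h0

end Fermat.Agent.S22.Sep

end
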