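import Mathlib

/-!
# S22, abstract part

If a set `G` of endomorphisms of a complex vector space `V` stabilises (by transposition) a
finitely generated `ℤ`-submodule `Λ` of the dual space which separates the points of `V`,
then the `ℤ`-algebra generated by `G` is a finitely generated `ℤ`-module.
-/

set_option autoImplicit false

namespace Fermat.Agent.S22

variable {V : Type*} [AddCommGroup V] [Module ℂ V]

theorem comp_mem_of_mem_adjoin (G : Set (Module.End ℂ V)) (Λ : Submodule ℤ (V →ₗ[ℂ] ℂ))
    (hstab : ∀ t ∈ G, ∀ φ ∈ Λ, φ.comp t ∈ Λ) :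
    ∀ t ∈ Algebra.adjoin ℤ G, ∀ φ ∈ Λ, φ.comp t ∈ Λ := by
  intro t ht
  induction ht using Algebra.adjoin_induction with
  | mem x hx => exact hstab x hx
  | algebraMap r =>
    intro φ hφ
    have : φ.comp (algebraMap ℤ (Module.End ℂ V) r) = r • φ := by
      ext v
      simp [Algebra.algebraMap_eq_smul_one]
    rw [this]
    exact Λ.smul_mem r hφ
  | add x y _ _ hx hy =>
    intro φ hφ
    have : φ.comp (x + y) = φ.comp x + φ.comp y := by
      ext v; simp
    rw [this]
    exact Λ.add_mem (hx φ hφ) (hy φ hφ)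
  | mul x y _ _ hx hy =>
    intro φ hφ
    have : φ.comp (x * y) = (φ.comp x).comp y := by
      ext v; simp
    rw [this]
    exact hy _ (hx φ hφ)

/-- Abstract finiteness lemma. -/
theorem finite_adjoin_of_lattice (G : Set (Module.End ℂ V)) (Λ : Submodule ℤ (V →ₗ[ℂ] ℂ))
    (hfg : Λ.FG) (hstab : ∀ t ∈ G, ∀ φ ∈ Λ, φ.comp t ∈ Λ)
    (hsep : ∀ v : V, (∀ φ ∈ Λ, φ v = 0) → v = 0) :
    Module.Finite ℤ (Algebra.adjoin ℤ G) := by
  have hA := comp_mem_of_mem_adjoin G Λ hstab
  haveI : Module.Finite ℤ Λ := Module.Finite.iff_fg.mpr hfg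
  haveI : Module.Free ℤ Λ := Module.free_of_finite_type_torsion_free'
  haveI : Module.Finite ℤ (Λ →ₗ[ℤ] Λ) := Module.Finite.linearMap ℤ ℤ Λ Λ
  let Φ : (Algebra.adjoin ℤ G) →ₗ[ℤ] (Λ →ₗ[ℤ] Λ) :=
    { toFun := fun t =>
        { toFun := fun φ => ⟨(φ : V →ₗ[ℂ] ℂ).comp (t : Module.End ℂ V), hA t t.2 φ φ.2⟩
          map_add' := by
            intro φ ψ
            apply Subtype.ext
            ext v
            simp
          map_smul' := by
            intro r φ
            apply Subtype.ext
            ext v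
            simp }
      map_add' := by
        intro s t
        ext φ v
        simp
      map_smul' := by
        intro r t
        ext φ v
        simp }
  have hinj : Function.Injective Φ := by
    rw [injective_iff_map_eq_zero]
    intro t ht
    apply Subtype.ext
    ext v
    apply hsep
    intro φ hφ
    have h1 := congrArg (fun F : Λ →ₗ[ℤ] Λ => ((F ⟨φ, hφ⟩ : Λ) : V →ₗ[ℂ] ℂ) v) ht
    simpa [Φ] using h1
  exact Module.Finite.of_injective Φ hinj

end Fermat.Agent.S22
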