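import Fermat.Agent.S22.Period

/-!
# S22: the period lattice is finitely generated

By the cocycle relation, the period lattice is generated by the functionals `perLin s (X ^ j)`,
`j ≤ m`, where `s` runs through a finite generating set of `Γ₀(N)` (Schreier) and a finite set
of coset representatives of `Γ₀(N)` in `SL(2,ℤ)`.
-/

set_option autoImplicit false

open Polynomial
open scoped MatrixGroups

namespace Fermat.Agent.S22

theorem groupFG_SL2Z : Group.FG SL(2, ℤ) :=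
  Group.fg_iff.mpr ⟨{ModularGroup.S, ModularGroup.T},
    _root_.SpecialLinearGroup.SL2Z_generators, Set.toFinite _⟩

theorem groupFG_Gamma0 (N : ℕ) [NeZero N] : Group.FG (CongruenceSubgroup.Gamma0 N) := by
  have := groupFG_SL2Z
  infer_instance

/-- Every `g ∈ SL(2,ℤ)` is `γ * r` with `γ ∈ Γ₀(N)` and `r` in a fixed finite set. -/
theorem exists_finite_cosetReps (N : ℕ) [NeZero N] :
    ∃ R : Set SL(2, ℤ), R.Finite ∧ ∀ g : SL(2, ℤ),
      ∃ γ ∈ CongruenceSubgroup.Gamma0 N, ∃ r ∈ R, g = γ * r := by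
  refine ⟨Set.range (fun q : SL(2, ℤ) ⧸ CongruenceSubgroup.Gamma0 N => (Quotient.out q)⁻¹),
    Set.finite_range _, fun g => ?_⟩
  obtain ⟨h, hh⟩ := QuotientGroup.mk_out_eq_mul (CongruenceSubgroup.Gamma0 N) g⁻¹
  refine ⟨h, h.2, _, ⟨(QuotientGroup.mk g⁻¹ : SL(2, ℤ) ⧸ CongruenceSubgroup.Gamma0 N), rfl⟩, ?_⟩
  simp only
  rw [hh]
  group

variable (N : ℕ) [NeZero N] (m : ℕ)

/-- The period lattice is finitely generated. -/
theorem lattice_fg : (lattice N m).FG := by
  obtain ⟨Gen, hGen, hGenfin⟩ := Group.fg_iff.mp (groupFG_Gamma0 N)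
  obtain ⟨R, hRfin, hR⟩ := exists_finite_cosetReps N
  set S₀ : Set SL(2, ℤ) := R ∪ (Subtype.val '' Gen) with hS₀
  have hS₀fin : S₀.Finite := hRfin.union (hGenfin.image _)
  set gens : Set (CuspForm (CongruenceSubgroup.Gamma0 N) ((m : ℤ) + 2) →ₗ[ℂ] ℂ) :=
    (fun p : SL(2, ℤ) × ℕ => perLin (N := N) m p.1 (X ^ p.2)) ''
      (S₀ ×ˢ (Finset.range (m + 1) : Set ℕ)) with hgens
  have hgensfin : gens.Finite := (hS₀fin.prod (Finset.finite_toSet _)).image _
  set Λ₀ : Submodule ℤ (CuspForm (CongruenceSubgroup.Gamma0 N) ((m : ℤ) + 2) →ₗ[ℂ] ℂ) :=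
    Submodule.span ℤ gens with hΛ₀
  have hΛ₀fg : Λ₀.FG := Submodule.fg_span hgensfin
  -- generators
  have key1 : ∀ s ∈ S₀, ∀ P : ℤ[X], perLin (N := N) m s P ∈ Λ₀ := by
    intro s hs P
    rw [perLin_eq_sum]
    refine Submodule.sum_mem _ fun j hj => Submodule.smul_mem _ _ (Submodule.subset_span ?_)
    exact ⟨(s, j), ⟨hs, by simpa using hj⟩, rfl⟩
  -- elements of `Γ₀(N)`
  have key2 : ∀ γ : CongruenceSubgroup.Gamma0 N, ∀ P : ℤ[X],
      perLin (N := N) m (γ : SL(2, ℤ)) P ∈ Λ₀ := by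
    intro γ
    have hγ : γ ∈ Subgroup.closure Gen := by rw [hGen]; trivial
    induction hγ using Subgroup.closure_induction with
    | mem x hx =>
      intro P
      exact key1 _ (Or.inr ⟨x, hx, rfl⟩) P
    | one =>
      intro P
      rw [Subgroup.coe_one, perLin_one]
      exact Submodule.zero_mem _
    | mul x y _ _ hx hy =>
      intro P
      rw [Subgroup.coe_mul, perLin_cocycle m x.2]
      exact Submodule.add_mem _ (hx P) (hy _)
    | inv x _ hx =>
      intro P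
      have h := perLin_cocycle (N := N) m (x⁻¹).2 (x : SL(2, ℤ)) P
      have e : ((x⁻¹ : CongruenceSubgroup.Gamma0 N) : SL(2, ℤ)) * (x : SL(2, ℤ)) = 1 := by
        rw [Subgroup.coe_inv, inv_mul_cancel]
      rw [e, perLin_one] at h
      have h' : perLin (N := N) m ((x⁻¹ : CongruenceSubgroup.Gamma0 N) : SL(2, ℤ)) P =
          -perLin (N := N) m (x : SL(2, ℤ))
            (polySlashSL m ((x⁻¹ : CongruenceSubgroup.Gamma0 N) : SL(2, ℤ)) P) :=
        eq_neg_of_add_eq_zero_left h.symm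
      rw [h']
      exact Submodule.neg_mem _ (hx _)
  -- all of `SL(2,ℤ)`
  have key3 : ∀ (g : SL(2, ℤ)) (P : ℤ[X]), perLin (N := N) m g P ∈ Λ₀ := by
    intro g P
    obtain ⟨γ, hγ, r, hr, rfl⟩ := hR g
    rw [perLin_cocycle m hγ]
    exact Submodule.add_mem _ (key2 ⟨γ, hγ⟩ P) (key1 r (Or.inl hr) _)
  have hle : lattice N m ≤ Λ₀ := by
    refine Submodule.span_le.mpr ?_
    rintro _ ⟨⟨g, P⟩, rfl⟩
    exact key3 g P
  exact Submodule.FG.of_le hΛ₀fg hle

end Fermat.Agent.S22
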