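import Mathlib

/-!
# S22: the weight `m` action of integer matrices on integer polynomials of degree `≤ m`
-/

set_option autoImplicit false

open Polynomial

namespace Fermat.Agent.S22

/-- `(P | [a b; c d])(X) = (cX + d)^m P((aX+b)/(cX+d))`, using only the coefficients of `P` of
index `≤ m`. -/
noncomputable def polySlash (m : ℕ) (a b c d : ℤ) (P : ℤ[X]) : ℤ[X] :=
  ∑ j ∈ Finset.range (m + 1), C (P.coeff j) * (C a * X + C b) ^ j * (C c * X + C d) ^ (m - j)

/-- Evaluation at `z ∈ ℂ` of the truncation to degree `≤ m` of an integer polynomial. -/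
noncomputable def trunc (m : ℕ) (P : ℤ[X]) (z : ℂ) : ℂ :=
  ∑ j ∈ Finset.range (m + 1), (P.coeff j : ℂ) * z ^ j

theorem trunc_add (m : ℕ) (P Q : ℤ[X]) (z : ℂ) : trunc m (P + Q) z = trunc m P z + trunc m Q z := by
  simp only [trunc, coeff_add, Int.cast_add, add_mul, Finset.sum_add_distrib]

theorem trunc_smul (m : ℕ) (n : ℤ) (P : ℤ[X]) (z : ℂ) : trunc m (n • P) z = n * trunc m P z := by
  simp only [trunc, coeff_smul, smul_eq_mul, Int.cast_mul, Finset.mul_sum, mul_assoc]

theorem trunc_zero (m : ℕ) (z : ℂ) : trunc m 0 z = 0 := by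
  simp [trunc]

theorem trunc_eq_aeval {m : ℕ} {P : ℤ[X]} (hP : P.natDegree ≤ m) (z : ℂ) :
    trunc m P z = aeval z P := by
  rw [aeval_eq_sum_range' (Nat.lt_succ_of_le hP)]
  simp only [trunc, zsmul_eq_mul]

theorem trunc_X_pow {m j : ℕ} (hj : j ≤ m) (z : ℂ) : trunc m (X ^ j : ℤ[X]) z = z ^ j := by
  rw [trunc_eq_aeval (by simpa using hj)]
  simp

theorem trunc_eq_sum (m : ℕ) (P : ℤ[X]) (z : ℂ) :
    trunc m P z = ∑ j ∈ Finset.range (m + 1), (P.coeff j : ℂ) * trunc m (X ^ j : ℤ[X]) z := by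
  unfold trunc
  refine Finset.sum_congr rfl (fun j hj => ?_)
  have hj' : j ≤ m := Nat.lt_succ_iff.mp (Finset.mem_range.mp hj)
  have := trunc_X_pow hj' z
  unfold trunc at this
  rw [this]

theorem natDegree_polySlash_le (m : ℕ) (a b c d : ℤ) (P : ℤ[X]) :
    (polySlash m a b c d P).natDegree ≤ m := by
  unfold polySlash
  refine natDegree_sum_le_of_forall_le _ _ (fun j hj => ?_)
  have hj' : j ≤ m := Nat.lt_succ_iff.mp (Finset.mem_range.mp hj)
  have h1 : (C a * X + C b : ℤ[X]).natDegree ≤ 1 := natDegree_linear_le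
  have h2 : (C c * X + C d : ℤ[X]).natDegree ≤ 1 := natDegree_linear_le
  have h3 : ((C a * X + C b : ℤ[X]) ^ j).natDegree ≤ j := by
    refine (natDegree_pow_le).trans ?_
    calc j * (C a * X + C b : ℤ[X]).natDegree ≤ j * 1 := Nat.mul_le_mul_left j h1
      _ = j := mul_one j
  have h4 : ((C c * X + C d : ℤ[X]) ^ (m - j)).natDegree ≤ m - j := by
    refine (natDegree_pow_le).trans ?_
    calc (m - j) * (C c * X + C d : ℤ[X]).natDegree ≤ (m - j) * 1 := Nat.mul_le_mul_left _ h2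
      _ = m - j := mul_one _
  calc (C (P.coeff j) * (C a * X + C b) ^ j * (C c * X + C d) ^ (m - j)).natDegree
      ≤ (C (P.coeff j) * (C a * X + C b) ^ j).natDegree
          + ((C c * X + C d : ℤ[X]) ^ (m - j)).natDegree := natDegree_mul_le
    _ ≤ ((C (P.coeff j) : ℤ[X]).natDegree + ((C a * X + C b : ℤ[X]) ^ j).natDegree)
          + ((C c * X + C d : ℤ[X]) ^ (m - j)).natDegree :=
        Nat.add_le_add_right natDegree_mul_le _
    _ ≤ (0 + j) + (m - j) := by
        refine Nat.add_le_add (Nat.add_le_add ?_ h3) h4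
        simp
    _ = m := by omega

theorem aeval_polySlash (m : ℕ) (a b c d : ℤ) (P : ℤ[X]) (z : ℂ) :
    aeval z (polySlash m a b c d P) =
      ∑ j ∈ Finset.range (m + 1),
        (P.coeff j : ℂ) * ((a : ℂ) * z + b) ^ j * ((c : ℂ) * z + d) ^ (m - j) := by
  unfold polySlash
  rw [map_sum]
  refine Finset.sum_congr rfl (fun j _ => ?_)
  simp

theorem trunc_polySlash (m : ℕ) (a b c d : ℤ) (P : ℤ[X]) (z : ℂ) :
    trunc m (polySlash m a b c d P) z =
      ∑ j ∈ Finset.range (m + 1),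
        (P.coeff j : ℂ) * ((a : ℂ) * z + b) ^ j * ((c : ℂ) * z + d) ^ (m - j) := by
  rw [trunc_eq_aeval (natDegree_polySlash_le m a b c d P), aeval_polySlash]

/-- The defining property of `polySlash`. -/
theorem trunc_polySlash_eq (m : ℕ) (a b c d : ℤ) (P : ℤ[X]) {z : ℂ}
    (hz : (c : ℂ) * z + d ≠ 0) :
    trunc m (polySlash m a b c d P) z =
      ((c : ℂ) * z + d) ^ m * trunc m P (((a : ℂ) * z + b) / ((c : ℂ) * z + d)) := by
  rw [trunc_polySlash]
  unfold trunc
  rw [Finset.mul_sum]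
  refine Finset.sum_congr rfl (fun j hj => ?_)
  have hj' : j ≤ m := Nat.lt_succ_iff.mp (Finset.mem_range.mp hj)
  have h1 : ((c : ℂ) * z + d) ^ m = ((c : ℂ) * z + d) ^ j * ((c : ℂ) * z + d) ^ (m - j) := by
    rw [← pow_add]
    congr 1
    omega
  rw [h1, div_pow]
  generalize (c : ℂ) * z + d = w at hz ⊢
  have h2 : w ^ j ≠ 0 := pow_ne_zero j hz
  field_simp

end Fermat.Agent.S22
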