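import Mathlib
import Fermat.Agent.S22.Cusp
import Fermat.Agent.S22.Poly

/-!
# S22: period functionals and the period lattice
-/

set_option autoImplicit false

open Complex Filter Topology Set UpperHalfPlane ModularForm Polynomial
open scoped MatrixGroups ModularForm

namespace Fermat.Agent.S22

variable {N : ℕ} (m : ℕ)

/-- The `1`-form `f(z) P(z) dz` (with `P` truncated to degree `≤ m`). -/
noncomputable def integrand (f : CuspForm (CongruenceSubgroup.Gamma0 N) ((m : ℤ) + 2))
    (P : ℤ[X]) : ℂ → ℂ :=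
  fun z => toC f z * trunc m P z

/-- `P | g` for `g ∈ SL(2,ℤ)`. -/
noncomputable def polySlashSL (g : SL(2, ℤ)) (P : ℤ[X]) : ℤ[X] :=
  polySlash m (g 0 0) (g 0 1) (g 1 0) (g 1 1) P

theorem stripPoly_trunc (P : ℤ[X]) : StripPoly (trunc m P) := by
  have : trunc m P = fun z => ∑ j ∈ Finset.range (m + 1), (P.coeff j : ℂ) * z ^ j := rfl
  rw [this]
  exact StripPoly.sum _ (fun i _ => (StripPoly.const _).mul (StripPoly.id.pow i))

theorem differentiable_trunc (P : ℤ[X]) : Differentiable ℂ (trunc m P) := by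
  have : trunc m P = fun z => ∑ j ∈ Finset.range (m + 1), (P.coeff j : ℂ) * z ^ j := rfl
  rw [this]
  fun_prop

theorem trunc_polySlashSL (g : SL(2, ℤ)) (P : ℤ[X]) {z : ℂ} (hz : 0 < z.im) :
    trunc m (polySlashSL m g P) z = den g z ^ m * trunc m P (mob g z) := by
  have hden : ((g 1 0 : ℤ) : ℂ) * z + ((g 1 1 : ℤ) : ℂ) ≠ 0 := den_ne_zero g hz
  rw [polySlashSL, trunc_polySlash_eq m _ _ _ _ P hden, mob_eq g hz]
  rfl

theorem pull_integrand (f : CuspForm (CongruenceSubgroup.Gamma0 N) ((m : ℤ) + 2))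
    (P : ℤ[X]) (g : SL(2, ℤ)) {z : ℂ} (hz : 0 < z.im) :
    pull g (integrand m f P) z =
      (toC f (mob g z) * den g z ^ (-((m : ℤ) + 2))) * trunc m (polySlashSL m g P) z := by
  have hden : den g z ≠ 0 := den_ne_zero g hz
  rw [trunc_polySlashSL m g P hz]
  simp only [pull, integrand]
  have h1 : den g z ^ (-((m : ℤ) + 2)) * den g z ^ m = (den g z ^ 2)⁻¹ := by
    rw [← zpow_natCast (den g z) m, ← zpow_add₀ hden, ← zpow_natCast (den g z) 2,
      ← zpow_neg]
    congr 1
    push_cast
    ring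
  rw [div_eq_mul_inv, ← h1]
  ring

theorem pull_integrand_of_mem (f : CuspForm (CongruenceSubgroup.Gamma0 N) ((m : ℤ) + 2))
    (P : ℤ[X]) {γ : SL(2, ℤ)} (hγ : γ ∈ CongruenceSubgroup.Gamma0 N) {z : ℂ} (hz : 0 < z.im) :
    pull γ (integrand m f P) z = integrand m f (polySlashSL m γ P) z := by
  have hden : den γ z ≠ 0 := den_ne_zero γ hz
  rw [pull_integrand m f P γ hz, toC_mob_of_mem f hγ hz, integrand]
  congr 1
  rw [mul_comm, ← mul_assoc, ← zpow_add₀ hden]
  simp

variable [NeZero N]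

theorem good_integrand (f : CuspForm (CongruenceSubgroup.Gamma0 N) ((m : ℤ) + 2)) (P : ℤ[X]) :
    Good (integrand m f P) := by
  refine ⟨?_, fun g => ?_⟩
  · exact (differentiableOn_toC f).mul (differentiable_trunc m P).differentiableOn
  · refine StripDecay.congr ((stripDecay_toC_mob f g).mul_stripPoly
      (stripPoly_trunc m (polySlashSL m g P))) (fun z hz => ?_)
    exact (pull_integrand m f P g hz).symm

/-- The period functional `f ↦ ∫_{i∞}^{g i∞} f(z) P(z) dz`. -/
noncomputable def perLin (g : SL(2, ℤ)) (P : ℤ[X]) :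
    CuspForm (CongruenceSubgroup.Gamma0 N) ((m : ℤ) + 2) →ₗ[ℂ] ℂ where
  toFun f := per (integrand m f P) g
  map_add' f₁ f₂ := by
    have h1 := (good_integrand m f₁ P).hasPer g
    have h2 := (good_integrand m f₂ P).hasPer g
    have := (h1.add h2).congr (h' := integrand m (f₁ + f₂) P) (fun z _ => by
      simp only [integrand, toC_add]
      ring)
    exact this.per_eq
  map_smul' a f := by
    have h1 := (good_integrand m f P).hasPer g
    have := (h1.const_mul a).congr (h' := integrand m (a • f) P) (fun z _ => by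
      simp only [integrand, toC_smul]
      ring)
    simpa using this.per_eq

theorem perLin_apply (g : SL(2, ℤ)) (P : ℤ[X])
    (f : CuspForm (CongruenceSubgroup.Gamma0 N) ((m : ℤ) + 2)) :
    perLin m g P f = per (integrand m f P) g := rfl

theorem hasPer_perLin (g : SL(2, ℤ)) (P : ℤ[X])
    (f : CuspForm (CongruenceSubgroup.Gamma0 N) ((m : ℤ) + 2)) :
    HasPer (integrand m f P) g (perLin m g P f) :=
  (good_integrand m f P).hasPer g

/-- The period lattice. -/
noncomputable def lattice (N : ℕ) [NeZero N] (m : ℕ) :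
    Submodule ℤ (CuspForm (CongruenceSubgroup.Gamma0 N) ((m : ℤ) + 2) →ₗ[ℂ] ℂ) :=
  Submodule.span ℤ (Set.range (fun p : SL(2, ℤ) × ℤ[X] => perLin (N := N) m p.1 p.2))

theorem perLin_mem_lattice (g : SL(2, ℤ)) (P : ℤ[X]) : perLin (N := N) m g P ∈ lattice N m :=
  Submodule.subset_span ⟨(g, P), rfl⟩

theorem perLin_one (P : ℤ[X]) : perLin (N := N) m 1 P = 0 := by
  ext f
  exact (hasPer_perLin m 1 P f).one

theorem perLin_eq_sum (g : SL(2, ℤ)) (P : ℤ[X]) :
    perLin (N := N) m g P =
      ∑ j ∈ Finset.range (m + 1), P.coeff j • perLin (N := N) m g (X ^ j) := by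
  ext f
  have h1 : HasPer (fun z => ∑ j ∈ Finset.range (m + 1),
      (P.coeff j : ℂ) * integrand m f (X ^ j) z) g
      (∑ j ∈ Finset.range (m + 1), (P.coeff j : ℂ) * perLin m g (X ^ j) f) :=
    HasPer.sum _ (fun j _ => (hasPer_perLin m g (X ^ j) f).const_mul _)
  have h2 := h1.congr (h' := integrand m f P) (fun z _ => by
    simp only [integrand]
    rw [trunc_eq_sum m P z, Finset.mul_sum]
    refine Finset.sum_congr rfl (fun j _ => ?_)
    ring)
  rw [perLin_apply, h2.per_eq]
  simp [LinearMap.sum_apply]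

theorem perLin_cocycle {γ : SL(2, ℤ)} (hγ : γ ∈ CongruenceSubgroup.Gamma0 N) (g : SL(2, ℤ))
    (P : ℤ[X]) :
    perLin (N := N) m (γ * g) P = perLin m γ P + perLin m g (polySlashSL m γ P) := by
  ext f
  have h1 := (good_integrand m f P).hasPer_cocycle γ g
  have h2 : per (pull γ (integrand m f P)) g = per (integrand m f (polySlashSL m γ P)) g := by
    have := ((good_integrand m f P).good_pull γ).hasPer g
    exact ((this.congr (fun z hz => pull_integrand_of_mem m f P hγ hz)).per_eq).symm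
  rw [h2] at h1
  simpa [perLin_apply] using h1

/-- The period lattice separates points, given the separation theorem in the form
`sep`. -/
theorem exists_normalized_prim (f : CuspForm (CongruenceSubgroup.Gamma0 N) ((m : ℤ) + 2))
    (P : ℤ[X]) :
    ∃ F : ℂ → ℂ, IsPrim F (integrand m f P) ∧ ∀ g : SL(2, ℤ), CuspVal F g (perLin m g P f) := by
  have hgood := good_integrand m f P
  obtain ⟨F₀, hF₀⟩ := exists_isPrim hgood.1
  obtain ⟨L₁, hL₁⟩ := hgood.exists_cuspVal hF₀ 1
  refine ⟨fun z => F₀ z - L₁, hF₀.sub_const L₁, fun g => ?_⟩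
  obtain ⟨L, hL⟩ := hgood.exists_cuspVal hF₀ g
  have h1 : HasPer (integrand m f P) g (L - L₁) := ⟨F₀, L, L₁, hF₀, hL, hL₁, rfl⟩
  rw [perLin_apply, h1.per_eq]
  exact hL.sub_const L₁

end Fermat.Agent.S22
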