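import Mathlib
import Fermat.Agent.S22.Period

/-!
# S22: the period lattice is stable under the Hecke operators
-/

set_option autoImplicit false

open Complex Filter Topology Set UpperHalfPlane ModularForm Polynomial
open scoped MatrixGroups ModularForm

namespace Fermat.Agent.S22

/-- The affine map `z ↦ (a z + b) / d`. -/
noncomputable def aff (a b d : ℤ) (z : ℂ) : ℂ := ((a : ℂ) * z + b) / d

theorem aff_eq_real (a b d : ℤ) (z : ℂ) :
    aff a b d z = (((a : ℝ) / (d : ℝ) : ℝ) : ℂ) * z + (((b : ℝ) / (d : ℝ) : ℝ) : ℂ) := by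
  unfold aff
  push_cast
  ring

theorem aff_im (a b d : ℤ) (z : ℂ) : (aff a b d z).im = (a : ℝ) / (d : ℝ) * z.im := by
  rw [aff_eq_real]
  simp

theorem aff_im_pos {a b d : ℤ} (ha : 0 < a) (hd : 0 < d) {z : ℂ} (hz : 0 < z.im) :
    0 < (aff a b d z).im := by
  rw [aff_im]
  have ha' : (0 : ℝ) < a := by exact_mod_cast ha
  have hd' : (0 : ℝ) < d := by exact_mod_cast hd
  positivity

theorem hasDerivAt_aff (a b d : ℤ) (z : ℂ) :
    HasDerivAt (aff a b d) ((a : ℂ) / (d : ℂ)) z := by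
  have h1 : HasDerivAt (fun z : ℂ => (a : ℂ) * z + b) (a : ℂ) z := by
    simpa using ((hasDerivAt_id z).const_mul (a : ℂ)).add_const (b : ℂ)
  exact h1.div_const (d : ℂ)

theorem IsPrim.comp_aff {F h : ℂ → ℂ} (hF : IsPrim F h) {a b d : ℤ} (ha : 0 < a) (hd : 0 < d) :
    IsPrim (fun z => F (aff a b d z)) (fun z => h (aff a b d z) * ((a : ℂ) / (d : ℂ))) := by
  intro z hz
  have h1 := hF (aff a b d z) (aff_im_pos ha hd hz)
  exact HasDerivAt.comp z h1 (hasDerivAt_aff a b d z)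

theorem StripDecay.comp_aff {h : ℂ → ℂ} (hh : StripDecay h) {a b d : ℤ} (ha : 0 < a)
    (hd : 0 < d) : StripDecay (fun z => h (aff a b d z)) := by
  have ha' : (0 : ℝ) < a := by exact_mod_cast ha
  have hd' : (0 : ℝ) < d := by exact_mod_cast hd
  have := hh.comp_affine (a := (a : ℝ) / (d : ℝ)) (div_pos ha' hd') ((b : ℝ) / (d : ℝ))
  refine this.congr (fun z _ => ?_)
  rw [aff_eq_real]

/-- The decomposition property `[a b; 0 d] g = g' [a' b'; 0 d']`. -/
def MobDecomp : Prop :=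
  ∀ (g : SL(2, ℤ)) (a b d : ℤ), 0 < a → 0 < d →
    ∃ (g' : SL(2, ℤ)) (a' b' d' : ℤ), 0 < a' ∧ 0 < d' ∧ ∀ z : ℂ, 0 < z.im →
      ((a : ℂ) * mob g z + b) / d = mob g' (((a' : ℂ) * z + b') / d')

/-- Periods of the pull-back of a good `1`-form by an affine map are periods of the form. -/
theorem Good.hasPer_comp_aff {h : ℂ → ℂ} (hh : Good h) {a b d : ℤ}
    (ha : 0 < a) (hd : 0 < d) {g g' : SL(2, ℤ)} {a' b' d' : ℤ} (ha' : 0 < a') (hd' : 0 < d')
    (hg' : ∀ z : ℂ, 0 < z.im →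
      ((a : ℂ) * mob g z + b) / d = mob g' (((a' : ℂ) * z + b') / d')) :
    HasPer (fun z => h (aff a b d z) * ((a : ℂ) / (d : ℂ))) g (per h g') := by
  obtain ⟨F, hF⟩ := exists_isPrim hh.1
  obtain ⟨L, hL⟩ := hh.exists_cuspVal hF g'
  obtain ⟨L₁, hL₁⟩ := hh.exists_cuspVal hF 1
  have hper : HasPer h g' (L - L₁) := ⟨F, L, L₁, hF, hL, hL₁, rfl⟩
  rw [hper.per_eq]
  refine ⟨fun z => F (aff a b d z), L, L₁, hF.comp_aff ha hd, ?_, ?_, rfl⟩
  · -- cusp value at `g`
    have h1 : StripDecay (fun z => F (mob g' (aff a' b' d' z)) - L) :=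
      StripDecay.comp_aff (h := fun w => F (mob g' w) - L) hL ha' hd'
    refine h1.congr (fun z hz => ?_)
    have := hg' z hz
    simp only [aff]
    rw [this]
  · -- cusp value at `1`
    have h1 : StripDecay (fun z => F (mob 1 (aff a b d z)) - L₁) :=
      StripDecay.comp_aff (h := fun w => F (mob 1 w) - L₁) hL₁ ha hd
    refine h1.congr (fun z hz => ?_)
    rw [mob_one hz, mob_one (aff_im_pos ha hd hz)]

variable {N : ℕ} (m : ℕ)

theorem toC_coe {k : ℤ} (f : CuspForm (CongruenceSubgroup.Gamma0 N) k) (τ : ℍ) :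
    toC f (τ : ℂ) = f τ := by
  rw [toC, ofComplex_apply]

theorem toC_heckeT {k : ℤ} {p : ℕ} (hp : p.Prime) (hpN : ¬ p ∣ N)
    (f : CuspForm (CongruenceSubgroup.Gamma0 N) k) {z : ℂ} (hz : 0 < z.im) :
    toC (CuspForm.heckeTLin k hp hpN f) z =
      (p : ℂ)⁻¹ * ∑ j ∈ Finset.range p, toC f (aff 1 (j : ℤ) (p : ℤ) z)
        + (p : ℂ) ^ (k - 1) * toC f (aff (p : ℤ) 0 1 z) := by
  have hp0 : p ≠ 0 := hp.ne_zero
  rw [toC, ofComplex_apply_of_im_pos hz, CuspForm.heckeTLin_apply_apply,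
    ModularForm.heckeT_apply k hp0]
  congr 1
  · congr 1
    refine Finset.sum_congr rfl (fun j _ => ?_)
    rw [← toC_coe f, ModularForm.coe_heckeMatrix_smul hp0]
    simp [aff]
  · rw [← toC_coe f, ModularForm.coe_heckeDiagMatrix_smul hp0]
    simp [aff]

theorem toC_heckeU [NeZero N] {k : ℤ} {p : ℕ} (hpN : p ∣ N)
    (f : CuspForm (CongruenceSubgroup.Gamma0 N) k) {z : ℂ} (hz : 0 < z.im) :
    toC (CuspForm.heckeULin k hpN f) z =
      (p : ℂ)⁻¹ * ∑ j ∈ Finset.range p, toC f (aff 1 (j : ℤ) (p : ℤ) z) := by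
  have hp0 : p ≠ 0 := fun h => NeZero.ne N (by simpa [h] using hpN)
  rw [toC, ofComplex_apply_of_im_pos hz, CuspForm.heckeULin_apply_apply,
    ModularForm.heckeU_apply k hp0]
  congr 1
  refine Finset.sum_congr rfl (fun j _ => ?_)
  rw [← toC_coe f, ModularForm.coe_heckeMatrix_smul hp0]
  simp [aff]

/-- The polynomial `P(pX - j)`. -/
noncomputable def polyJ (p j : ℕ) (P : ℤ[X]) : ℤ[X] := polySlash m (p : ℤ) (-(j : ℤ)) 0 1 P

/-- The polynomial `p^m P(X/p)`. -/
noncomputable def polyInf (p : ℕ) (P : ℤ[X]) : ℤ[X] := polySlash m 1 0 0 (p : ℤ) P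

theorem trunc_polyJ {p : ℕ} (hp : p ≠ 0) (j : ℕ) (P : ℤ[X]) (z : ℂ) :
    trunc m (polyJ m p j P) (aff 1 (j : ℤ) (p : ℤ) z) = trunc m P z := by
  have h1 : ((0 : ℤ) : ℂ) * (aff 1 (j : ℤ) (p : ℤ) z) + ((1 : ℤ) : ℂ) ≠ 0 := by simp
  rw [polyJ, trunc_polySlash_eq m _ _ _ _ P h1]
  have hp' : (p : ℂ) ≠ 0 := by exact_mod_cast hp
  have h2 : (((p : ℤ) : ℂ) * aff 1 (j : ℤ) (p : ℤ) z + ((-(j : ℤ) : ℤ) : ℂ)) /
      (((0 : ℤ) : ℂ) * aff 1 (j : ℤ) (p : ℤ) z + ((1 : ℤ) : ℂ)) = z := by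
    simp only [aff]
    push_cast
    rw [zero_mul, zero_add, div_one, one_mul, mul_div_cancel₀ _ hp']
    ring
  rw [h2]
  simp

theorem trunc_polyInf {p : ℕ} (hp : p ≠ 0) (P : ℤ[X]) (z : ℂ) :
    trunc m (polyInf m p P) (aff (p : ℤ) 0 1 z) = (p : ℂ) ^ m * trunc m P z := by
  have hp' : (p : ℂ) ≠ 0 := by exact_mod_cast hp
  have h1 : ((0 : ℤ) : ℂ) * (aff (p : ℤ) 0 1 z) + (((p : ℤ) : ℤ) : ℂ) ≠ 0 := by simpa using hp'
  rw [polyInf, trunc_polySlash_eq m _ _ _ _ P h1]
  have h2 : (((1 : ℤ) : ℂ) * aff (p : ℤ) 0 1 z + ((0 : ℤ) : ℂ)) /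
      (((0 : ℤ) : ℂ) * aff (p : ℤ) 0 1 z + (((p : ℤ) : ℤ) : ℂ)) = z := by
    simp only [aff]
    push_cast
    rw [zero_mul, zero_add, div_one, one_mul, add_zero, add_zero, mul_div_cancel_left₀ _ hp']
  rw [h2]
  simp

variable [NeZero N]

theorem perLin_comp_heckeU_mem (hdec : MobDecomp) {p : ℕ} (hpN : p ∣ N) (g : SL(2, ℤ))
    (P : ℤ[X]) :
    (perLin (N := N) m g P).comp (CuspForm.heckeULin ((m : ℤ) + 2) hpN) ∈ lattice N m := by
  have hp0 : p ≠ 0 := fun h => NeZero.ne N (by simpa [h] using hpN)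
  have hppos : (0 : ℤ) < (p : ℤ) := by exact_mod_cast Nat.pos_of_ne_zero hp0
  have hp' : (p : ℂ) ≠ 0 := by exact_mod_cast hp0
  choose g' a' b' d' ha' hd' hg' using
    fun j : ℕ => hdec g 1 (j : ℤ) (p : ℤ) one_pos hppos
  have key : (perLin (N := N) m g P).comp (CuspForm.heckeULin ((m : ℤ) + 2) hpN) =
      ∑ j ∈ Finset.range p, perLin (N := N) m (g' j) (polyJ m p j P) := by
    ext f
    have h1 : ∀ j ∈ Finset.range p,
        HasPer (fun z => integrand m f (polyJ m p j P) (aff 1 (j : ℤ) (p : ℤ) z)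
          * (((1 : ℤ) : ℂ) / ((p : ℤ) : ℂ))) g (perLin m (g' j) (polyJ m p j P) f) :=
      fun j _ => (good_integrand m f (polyJ m p j P)).hasPer_comp_aff one_pos hppos
        (ha' j) (hd' j) (hg' j)
    have h2 := HasPer.sum (Finset.range p) h1
    have h3 := h2.congr
      (h' := integrand m (CuspForm.heckeULin ((m : ℤ) + 2) hpN f) P) (fun z hz => by
        simp only [integrand]
        rw [toC_heckeU hpN f hz, Finset.mul_sum, Finset.sum_mul]
        refine Finset.sum_congr rfl (fun j _ => ?_)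
        rw [trunc_polyJ m hp0 j P z]
        push_cast
        ring)
    rw [LinearMap.comp_apply, perLin_apply, h3.per_eq]
    simp [LinearMap.sum_apply]
  rw [key]
  exact Submodule.sum_mem _ (fun j _ => perLin_mem_lattice m _ _)

theorem perLin_comp_heckeT_mem (hdec : MobDecomp) {p : ℕ} (hp : p.Prime) (hpN : ¬ p ∣ N)
    (g : SL(2, ℤ)) (P : ℤ[X]) :
    (perLin (N := N) m g P).comp (CuspForm.heckeTLin ((m : ℤ) + 2) hp hpN) ∈ lattice N m := by
  have hp0 : p ≠ 0 := hp.ne_zero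
  have hppos : (0 : ℤ) < (p : ℤ) := by exact_mod_cast Nat.pos_of_ne_zero hp0
  have hp' : (p : ℂ) ≠ 0 := by exact_mod_cast hp0
  choose g' a' b' d' ha' hd' hg' using
    fun j : ℕ => hdec g 1 (j : ℤ) (p : ℤ) one_pos hppos
  obtain ⟨g'', a'', b'', d'', ha'', hd'', hg''⟩ := hdec g (p : ℤ) 0 1 hppos one_pos
  have key : (perLin (N := N) m g P).comp (CuspForm.heckeTLin ((m : ℤ) + 2) hp hpN) =
      ∑ j ∈ Finset.range p, perLin (N := N) m (g' j) (polyJ m p j P)
        + perLin (N := N) m g'' (polyInf m p P) := by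
    ext f
    have h1 : ∀ j ∈ Finset.range p,
        HasPer (fun z => integrand m f (polyJ m p j P) (aff 1 (j : ℤ) (p : ℤ) z)
          * (((1 : ℤ) : ℂ) / ((p : ℤ) : ℂ))) g (perLin m (g' j) (polyJ m p j P) f) :=
      fun j _ => (good_integrand m f (polyJ m p j P)).hasPer_comp_aff one_pos hppos
        (ha' j) (hd' j) (hg' j)
    have h2 := HasPer.sum (Finset.range p) h1
    have h2' : HasPer (fun z => integrand m f (polyInf m p P) (aff (p : ℤ) 0 1 z)
          * (((p : ℤ) : ℂ) / ((1 : ℤ) : ℂ))) g (perLin m g'' (polyInf m p P) f) :=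
      (good_integrand m f (polyInf m p P)).hasPer_comp_aff hppos one_pos ha'' hd'' hg''
    have h3 := (h2.add h2').congr
      (h' := integrand m (CuspForm.heckeTLin ((m : ℤ) + 2) hp hpN f) P) (fun z hz => by
        simp only [integrand]
        rw [toC_heckeT hp hpN f hz, add_mul, Finset.mul_sum, Finset.sum_mul]
        congr 1
        · refine Finset.sum_congr rfl (fun j _ => ?_)
          rw [trunc_polyJ m hp0 j P z]
          push_cast
          ring
        · rw [trunc_polyInf m hp0 P z]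
          have : (p : ℂ) ^ ((m : ℤ) + 2 - 1) = (p : ℂ) ^ m * p := by
            rw [show (m : ℤ) + 2 - 1 = (m : ℤ) + 1 by ring, zpow_add₀ hp', zpow_natCast,
              zpow_one]
          rw [this]
          push_cast
          ring)
    rw [LinearMap.comp_apply, perLin_apply, h3.per_eq]
    simp [LinearMap.sum_apply]
  rw [key]
  exact Submodule.add_mem _ (Submodule.sum_mem _ (fun j _ => perLin_mem_lattice m _ _))
    (perLin_mem_lattice m _ _)

/-- The period lattice is stable under transposition by any linear map which maps the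
generators into the lattice. -/
theorem lattice_stable_of_gen
    (T : Module.End ℂ (CuspForm (CongruenceSubgroup.Gamma0 N) ((m : ℤ) + 2)))
    (hT : ∀ (g : SL(2, ℤ)) (P : ℤ[X]), (perLin (N := N) m g P).comp T ∈ lattice N m) :
    ∀ φ ∈ lattice N m, φ.comp T ∈ lattice N m := by
  intro φ hφ
  induction hφ using Submodule.span_induction with
  | mem x hx =>
    obtain ⟨⟨g, P⟩, rfl⟩ := hx
    exact hT g P
  | zero => simp
  | add x y _ _ hx hy =>
    have : (x + y).comp T = x.comp T + y.comp T := by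
      ext v; simp
    rw [this]
    exact Submodule.add_mem _ hx hy
  | smul a x _ hx =>
    have : (a • x).comp T = a • x.comp T := by
      ext v; simp
    rw [this]
    exact Submodule.smul_mem _ a hx

theorem lattice_stable_heckeT (hdec : MobDecomp) {p : ℕ} (hp : p.Prime) (hpN : ¬ p ∣ N) :
    ∀ φ ∈ lattice N m, φ.comp (CuspForm.heckeTLin ((m : ℤ) + 2) hp hpN) ∈ lattice N m :=
  lattice_stable_of_gen m _ (fun g P => perLin_comp_heckeT_mem m hdec hp hpN g P)

theorem lattice_stable_heckeU (hdec : MobDecomp) {p : ℕ} (hpN : p ∣ N) :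
    ∀ φ ∈ lattice N m, φ.comp (CuspForm.heckeULin ((m : ℤ) + 2) hpN) ∈ lattice N m :=
  lattice_stable_of_gen m _ (fun g P => perLin_comp_heckeU_mem m hdec hpN g P)

end Fermat.Agent.S22
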