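import Fermat.Agent.S22.SepCusp

/-!
# S22: separation

If all cusp values of primitives of `f z^j` (`j ≤ m`) vanish, then the cusp form `f` of weight
`m + 2` on `Γ₀(N)` is zero: its Eichler integral is a cusp form of weight `-m`.
-/

set_option autoImplicit false

noncomputable section

namespace Fermat.Agent.S22.Sep

open Complex Filter Function UpperHalfPlane Matrix.SpecialLinearGroup
open scoped Topology Real ModularForm MatrixGroups Pointwise

variable {N : ℕ} [NeZero N] {m : ℕ} (d : SepData N m)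

/-- The Eichler integral `E(τ) = Φ_f(τ)(τ, 1) = m! G_{m+1}(τ)`. -/
def SepData.E : ℍ → ℂ := fun τ => Phi m (⇑d.f) τ τ 1

theorem SepData.E_apply (τ : ℍ) :
    d.E τ = (m.factorial : ℂ) * iprim (m + 1) (⇑d.f) τ := Phi_diag m _ τ

theorem SepData.E_slash (δ : SL(2, ℤ)) (τ : ℍ) :
    (d.E ∣[-(m : ℤ)] δ) τ =
      (m.factorial : ℂ) * iprim (m + 1) (⇑d.f ∣[(m : ℤ) + 2] δ) τ := by
  rw [ModularForm.SL_slash_apply, neg_neg, zpow_natCast, ← Phi_diag, d.Phi_slash δ τ 1 τ]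
  have hd : denom δ τ ≠ 0 := denom_ne_zero _ τ
  have h := Phi_homog m (⇑d.f) (δ • τ) (denom δ τ) ((δ • τ : ℍ) : ℂ) 1
  have e1 : denom δ τ * ((δ • τ : ℍ) : ℂ) = (δ 0 0 : ℤ) * (τ : ℂ) + (δ 0 1 : ℤ) * 1 := by
    rw [coe_specialLinearGroup_apply]
    have hd' : ((algebraMap ℤ ℝ (δ 1 0) : ℝ) : ℂ) * τ + ((algebraMap ℤ ℝ (δ 1 1) : ℝ) : ℂ) ≠ 0 := by
      have := hd
      simpa [denom] using this
    rw [show denom δ τ = ((algebraMap ℤ ℝ (δ 1 0) : ℝ) : ℂ) * τ +
      ((algebraMap ℤ ℝ (δ 1 1) : ℝ) : ℂ) by simp [denom]]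
    rw [mul_div_cancel₀ _ hd']
    simp
  have e2 : denom δ τ * 1 = (δ 1 0 : ℤ) * (τ : ℂ) + (δ 1 1 : ℤ) * 1 := by
    simp [denom]
  rw [e1, e2] at h
  rw [h, SepData.E]
  ring

theorem SepData.E_slash_eq (δ : SL(2, ℤ)) :
    d.E ∣[-(m : ℤ)] δ = fun τ => (m.factorial : ℂ) * iprim (m + 1) (⇑d.f ∣[(m : ℤ) + 2] δ) τ :=
  funext fun τ => d.E_slash δ τ

theorem SepData.E_holo :
    MDifferentiable (modelWithCornersSelf ℂ ℂ) (modelWithCornersSelf ℂ ℂ) d.E := by
  have h : d.E = (m.factorial : ℂ) • iprim (m + 1) (⇑d.f) := funext fun τ => d.E_apply τ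
  rw [h]
  exact ((decay_cuspForm d.f).iprim (m + 1)).holo.const_smul _

theorem SepData.E_zero_slash (δ : SL(2, ℤ)) : IsZeroAtImInfty (d.E ∣[-(m : ℤ)] δ) := by
  rw [d.E_slash_eq δ]
  have h := ((decay_slash d.f δ).iprim (m + 1)).zero
  have := h.const_mul (m.factorial : ℂ)
  simpa [IsZeroAtImInfty, ZeroAtFilter] using this

/-- The Eichler integral as a cusp form of weight `-m`. -/
def SepData.eichlerForm : CuspForm (CongruenceSubgroup.Gamma0 N) (-(m : ℤ)) where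
  toFun := d.E
  slash_action_eq' := by
    intro γ hγ
    obtain ⟨δ, hδ, rfl⟩ := hγ
    have hf : ⇑d.f ∣[(m : ℤ) + 2] δ = ⇑d.f :=
      SlashInvariantFormClass.slash_action_eq d.f (mapGL ℝ δ) ⟨δ, hδ, rfl⟩
    funext τ
    have := d.E_slash δ τ
    rw [hf, ← d.E_apply] at this
    exact this
  holo' := d.E_holo
  zero_at_cusps' := by
    intro c hc
    rw [Subgroup.IsArithmetic.isCusp_iff_isCusp_SL2Z] at hc
    rw [OnePoint.isZeroAt_iff_forall_SL2Z hc]
    intro γ _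
    exact d.E_zero_slash γ

theorem SepData.f_eq_zero : d.f = 0 := by
  have hE : d.eichlerForm = 0 :=
    cuspForm_eq_zero_of_nonpos N (by simp) d.eichlerForm
  have h1 : ∀ τ : ℍ, d.E τ = 0 := fun τ => by
    have := DFunLike.congr_fun hE τ
    exact this
  have h2 : iprim (m + 1) (⇑d.f) = 0 := by
    funext τ
    have := h1 τ
    rw [d.E_apply] at this
    rcases mul_eq_zero.mp this with h | h
    · exact absurd h (by exact_mod_cast (Nat.factorial_pos m).ne')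
    · exact h
  have h3 := eq_zero_of_iprim_eq_zero (decay_cuspForm d.f) (m + 1) h2
  ext τ
  exact congrFun h3 τ

end Fermat.Agent.S22.Sep

namespace Fermat.Agent.S22

open UpperHalfPlane
open scoped MatrixGroups

/-- **Separation**: a cusp form of weight `m + 2` on `Γ₀(N)` all of whose periods vanish is zero. -/
theorem separation (N : ℕ) [NeZero N] (m : ℕ)
    (f : CuspForm (CongruenceSubgroup.Gamma0 N) ((m : ℤ) + 2)) (F : ℕ → ℂ → ℂ)
    (hF : ∀ j ≤ m, IsPrim (F j) (fun z => f (ofComplex z) * z ^ j))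
    (hL : ∀ j ≤ m, ∀ g : SL(2, ℤ), CuspVal (F j) g 0) : f = 0 :=
  Sep.SepData.f_eq_zero (Sep.SepData.ofPrim f F hF hL)

end Fermat.Agent.S22

end
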