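import Mathlib
import Fermat.Prelude.Def_CuspForm_HeckeAlgebra
import Fermat.Prelude.Thm_ModularForm_sturm_bound_Gamma0

/-!
# S22, trivial cases: weight `k ≤ 0` and odd weight
-/

set_option autoImplicit false

open CuspForm ModularFormClass UpperHalfPlane ModularForm
open scoped MatrixGroups

namespace Fermat.Agent.S22

/-- A modular form of weight `≤ 0` on `Γ₀(N)` whose constant term vanishes is zero. -/
theorem modularForm_eq_zero_of_nonpos (N : ℕ) [NeZero N] {k : ℤ} (hk : k ≤ 0)
    (f : ModularForm (CongruenceSubgroup.Gamma0 N) k)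
    (h0 : (qExpansion 1 f).coeff 0 = 0) : f = 0 := by
  refine ModularForm.sturm_bound_Gamma0 N f ?_
  intro n hn
  have hn0 : n = 0 := by
    have h1 : (k * ((CongruenceSubgroup.Gamma0 N).index : ℤ)) ≤ 0 :=
      mul_nonpos_of_nonpos_of_nonneg hk (by positivity)
    have h2 : (k * ((CongruenceSubgroup.Gamma0 N).index : ℤ)).toNat = 0 := by
      simpa using h1
    rw [h2] at hn
    simpa using hn
  subst hn0
  exact h0

/-- A cusp form of weight `≤ 0` on `Γ₀(N)` is zero. -/
theorem cuspForm_eq_zero_of_nonpos (N : ℕ) [NeZero N] {k : ℤ} (hk : k ≤ 0)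
    (f : CuspForm (CongruenceSubgroup.Gamma0 N) k) : f = 0 := by
  have h1 : (1 : ℝ) ∈
      (CongruenceSubgroup.Gamma0 N : Subgroup (GL (Fin 2) ℝ)).strictPeriods := by
    simp [CongruenceSubgroup.strictPeriods_Gamma0]
  have hF : (ModularFormClass.modularForm f :
      ModularForm (CongruenceSubgroup.Gamma0 N) k) = 0 :=
    modularForm_eq_zero_of_nonpos N hk _ (CuspFormClass.qExpansion_coeff_zero f one_pos h1)
  ext z
  have := DFunLike.congr_fun hF z
  simpa using this

/-- A cusp form of odd weight on `Γ₀(N)` is zero. -/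
theorem cuspForm_eq_zero_of_odd (N : ℕ) {k : ℤ} (hk : Odd k)
    (f : CuspForm (CongruenceSubgroup.Gamma0 N) k) : f = 0 := by
  have hmem : (-1 : GL (Fin 2) ℝ) ∈
      (CongruenceSubgroup.Gamma0 N : Subgroup (GL (Fin 2) ℝ)) := by
    refine ⟨-1, ?_, ?_⟩
    · simp [CongruenceSubgroup.Gamma0_mem]
    · ext i j
      simp
  have hF : (ModularFormClass.modularForm f :
      ModularForm (CongruenceSubgroup.Gamma0 N) k) = 0 :=
    ModularForm.eq_zero_of_neg_one_mem hmem hk _
  ext z
  have := DFunLike.congr_fun hF z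
  simpa using this

/-- If the space of cusp forms is zero, the Hecke algebra is trivially finite. -/
theorem finite_heckeAlgebra_of_forall_eq_zero (N : ℕ) [NeZero N] (k : ℤ) (S : Set ℕ)
    (h : ∀ f : CuspForm (CongruenceSubgroup.Gamma0 N) k, f = 0) :
    Module.Finite ℤ (CuspForm.heckeAlgebra N k S) := by
  haveI : Subsingleton (CuspForm (CongruenceSubgroup.Gamma0 N) k) :=
    ⟨fun a b => (h a).trans (h b).symm⟩
  haveI : Subsingleton (Module.End ℂ (CuspForm (CongruenceSubgroup.Gamma0 N) k)) :=
    ⟨fun a b => LinearMap.ext fun v => Subsingleton.elim _ _⟩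
  haveI : Subsingleton (CuspForm.heckeAlgebra N k S) :=
    ⟨fun a b => Subtype.ext (Subsingleton.elim _ _)⟩
  exact Module.Finite.of_finite

end Fermat.Agent.S22
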