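import Fermat.Agent.S22.SepPrim

/-!
# S22, part Φ: the polynomial-valued Eichler primitive

For `f` in the class `𝒟` and `m : ℕ` we put
`Φ_f(z)(X, Y) = ∑_{i ≤ m} m!/(m-i)! · (X - zY)^(m-i) · Y^i · G_{i+1}(z)`,
where `G_i` is the `i`-fold decaying primitive of `f`. It satisfies
`∂_z Φ_f(z)(X, Y) = f(z) (X - zY)^m` and `Φ_f(z)(z, 1) = m! · G_{m+1}(z)`.
-/

set_option autoImplicit false

noncomputable section

namespace Fermat.Agent.S22.Sep

open Complex Filter Function UpperHalfPlane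
open scoped Topology Real ModularForm MatrixGroups

/-- The polynomial-valued primitive, as a function of `z : ℂ`. -/
def PhiC (m : ℕ) (f : ℍ → ℂ) (X Y : ℂ) (z : ℂ) : ℂ :=
  ∑ i ∈ Finset.range (m + 1),
    (m.descFactorial i : ℂ) * (X - z * Y) ^ (m - i) * Y ^ i * (iprim (i + 1) f ∘ ofComplex) z

/-- The polynomial-valued primitive, as a function of `τ : ℍ`. -/
def Phi (m : ℕ) (f : ℍ → ℂ) (τ : ℍ) (X Y : ℂ) : ℂ := PhiC m f X Y τ

theorem Phi_def (m : ℕ) (f : ℍ → ℂ) (τ : ℍ) (X Y : ℂ) :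
    Phi m f τ X Y = ∑ i ∈ Finset.range (m + 1),
      (m.descFactorial i : ℂ) * (X - τ * Y) ^ (m - i) * Y ^ i * iprim (i + 1) f τ := by
  simp [Phi, PhiC]

theorem hasDerivAt_PhiC_term (m i : ℕ) {f : ℍ → ℂ} (hf : Decay f) (X Y : ℂ) (τ : ℍ) :
    HasDerivAt (fun z : ℂ => (m.descFactorial i : ℂ) * (X - z * Y) ^ (m - i) * Y ^ i *
        (iprim (i + 1) f ∘ ofComplex) z)
      ((m.descFactorial i : ℂ) * (X - τ * Y) ^ (m - i) * Y ^ i * iprim i f τ -
        (m.descFactorial (i + 1) : ℂ) * (X - τ * Y) ^ (m - (i + 1)) * Y ^ (i + 1) *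
          iprim (i + 1) f τ) τ := by
  have h1 : HasDerivAt (fun z : ℂ => X - z * Y) (-Y) (τ : ℂ) := by
    simpa using ((hasDerivAt_id (τ : ℂ)).mul_const Y).const_sub X
  have h2 := h1.pow (m - i)
  have h3 := isPrim_iprim_succ hf i τ
  have h4 := ((h2.const_mul (m.descFactorial i : ℂ)).mul_const (Y ^ i)).mul h3
  have hval : (iprim (i + 1) f ∘ ofComplex) (τ : ℂ) = iprim (i + 1) f τ := by simp
  refine (h4.congr_deriv ?_).congr_of_eventuallyEq (Eventually.of_forall fun z => by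
    simp only [Pi.pow_apply, Pi.mul_apply])
  rw [hval, Nat.descFactorial_succ, Nat.sub_sub]
  push_cast
  rcases Nat.eq_zero_or_pos (m - i) with h0 | hpos
  · simp [h0]
  · have e : m - i = (m - i - 1) + 1 := by omega
    have e2 : m - (i + 1) = m - i - 1 := by omega
    rw [e2]
    simp only [Pi.pow_apply]
    generalize m - i - 1 = n at e
    rw [e]
    simp only [pow_succ]
    push_cast
    ring

theorem hasDerivAt_PhiC (m : ℕ) {f : ℍ → ℂ} (hf : Decay f) (X Y : ℂ) (τ : ℍ) :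
    HasDerivAt (PhiC m f X Y) (f τ * (X - τ * Y) ^ m) τ := by
  have h := HasDerivAt.fun_sum (u := Finset.range (m + 1))
    (fun i _ => hasDerivAt_PhiC_term m i hf X Y τ)
  have hsum := Finset.sum_range_sub' (fun i => (m.descFactorial i : ℂ) * (X - τ * Y) ^ (m - i) *
    Y ^ i * iprim i f τ) (m + 1)
  rw [hsum] at h
  simp only [Nat.descFactorial_zero, Nat.cast_one, one_mul, Nat.sub_zero, pow_zero, mul_one,
    iprim_zero, Nat.descFactorial_of_lt (Nat.lt_succ_self m), Nat.cast_zero, zero_mul,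
    sub_zero] at h
  rw [mul_comm] at h
  exact h

theorem Phi_diag (m : ℕ) (f : ℍ → ℂ) (τ : ℍ) :
    Phi m f τ τ 1 = (m.factorial : ℂ) * iprim (m + 1) f τ := by
  rw [Phi_def, Finset.sum_range_succ]
  have : ∀ i ∈ Finset.range m, (m.descFactorial i : ℂ) * ((τ : ℂ) - τ * 1) ^ (m - i) * 1 ^ i *
      iprim (i + 1) f τ = 0 := by
    intro i hi
    have hi' : m - i ≠ 0 := by
      have := Finset.mem_range.mp hi
      omega
    simp [hi']
  rw [Finset.sum_eq_zero this]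
  simp [Nat.descFactorial_self]

theorem Phi_add (m : ℕ) {f g : ℍ → ℂ} (hf : Decay f) (hg : Decay g) (τ : ℍ) (X Y : ℂ) :
    Phi m (f + g) τ X Y = Phi m f τ X Y + Phi m g τ X Y := by
  simp only [Phi_def, iprim_add hf hg, Pi.add_apply, mul_add, Finset.sum_add_distrib]

theorem Phi_smul (m : ℕ) {f : ℍ → ℂ} (hf : Decay f) (c : ℂ) (τ : ℍ) (X Y : ℂ) :
    Phi m (c • f) τ X Y = c * Phi m f τ X Y := by
  simp only [Phi_def, iprim_smul hf, Pi.smul_apply, smul_eq_mul, Finset.mul_sum]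
  refine Finset.sum_congr rfl fun i _ => ?_
  ring

theorem iprim_zero_fun (n : ℕ) : iprim n (0 : ℍ → ℂ) = 0 := by
  have h0 : Decay (0 : ℍ → ℂ) := by
    have := Decay.sum (ι := ℕ) ∅ (f := fun _ => (0 : ℍ → ℂ)) (by simp)
    simpa using this
  have := iprim_smul h0 0 n
  simpa using this

theorem Phi_zero (m : ℕ) (τ : ℍ) (X Y : ℂ) : Phi m 0 τ X Y = 0 := by
  simp [Phi_def, iprim_zero_fun]

theorem Phi_sum (m : ℕ) {ι : Type*} (s : Finset ι) {f : ι → ℍ → ℂ} (hf : ∀ i ∈ s, Decay (f i))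
    (τ : ℍ) (X Y : ℂ) :
    Phi m (∑ i ∈ s, f i) τ X Y = ∑ i ∈ s, Phi m (f i) τ X Y := by
  classical
  induction s using Finset.induction_on with
  | empty => simp [Phi_zero]
  | insert a s ha ih =>
    rw [Finset.sum_insert ha, Finset.sum_insert ha,
      Phi_add m (hf a (Finset.mem_insert_self a s))
        (Decay.sum s fun i hi => hf i (Finset.mem_insert_of_mem hi)),
      ih fun i hi => hf i (Finset.mem_insert_of_mem hi)]

theorem Phi_homog (m : ℕ) (f : ℍ → ℂ) (τ : ℍ) (c X Y : ℂ) :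
    Phi m f τ (c * X) (c * Y) = c ^ m * Phi m f τ X Y := by
  simp only [Phi_def, Finset.mul_sum]
  refine Finset.sum_congr rfl fun i hi => ?_
  have hi' : i ≤ m := Nat.lt_succ_iff.mp (Finset.mem_range.mp hi)
  have e : c ^ m = c ^ (m - i) * c ^ i := by rw [← pow_add, Nat.sub_add_cancel hi']
  rw [e, show c * X - τ * (c * Y) = c * (X - τ * Y) by ring, mul_pow, mul_pow]
  ring

/-! ### The transformation law -/

theorem det_eq_entries (g : GL (Fin 2) ℝ) :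
    (g.det.val : ℝ) = g 0 0 * g 1 1 - g 0 1 * g 1 0 := by
  rw [Matrix.GeneralLinearGroup.val_det_apply, Matrix.det_fin_two]

theorem hasDerivAt_mob (g : GL (Fin 2) ℝ) {z : ℂ} (hz : denom g z ≠ 0) :
    HasDerivAt (fun z : ℂ => num g z / denom g z) ((g.det.val : ℂ) / denom g z ^ 2) z := by
  have hn : HasDerivAt (fun z : ℂ => num g z) (g 0 0 : ℂ) z := by
    unfold num
    simpa using ((hasDerivAt_id z).const_mul ((g 0 0 : ℝ) : ℂ)).add_const ((g 0 1 : ℝ) : ℂ)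
  have hd : HasDerivAt (fun z : ℂ => denom g z) (g 1 0 : ℂ) z := by
    unfold denom
    simpa using ((hasDerivAt_id z).const_mul ((g 1 0 : ℝ) : ℂ)).add_const ((g 1 1 : ℝ) : ℂ)
  have h := hn.div hd hz
  refine h.congr_deriv ?_
  rw [det_eq_entries]
  simp only [num, denom]
  push_cast
  ring

theorem slash_apply_of_det_pos (k : ℤ) (f : ℍ → ℂ) {g : GL (Fin 2) ℝ} (hg : 0 < g.det.val)
    (τ : ℍ) :
    (f ∣[k] g) τ = f (g • τ) * (g.det.val : ℂ) ^ (k - 1) * denom g τ ^ (-k) := by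
  rw [ModularForm.slash_apply, UpperHalfPlane.σ, if_pos hg, abs_of_pos hg]
  rfl

theorem hasDerivAt_PhiC_comp (m : ℕ) (k : ℤ) (hk : k = m + 2) {f : ℍ → ℂ} (hf : Decay f)
    {g : GL (Fin 2) ℝ} (hg : 0 < g.det.val) (X Y : ℂ) (τ : ℍ) :
    HasDerivAt (fun z : ℂ => PhiC m f (g 0 0 * X + g 0 1 * Y) (g 1 0 * X + g 1 1 * Y)
        (num g z / denom g z))
      ((f ∣[k] g) τ * (X - τ * Y) ^ m) τ := by
  have hd : denom g τ ≠ 0 := denom_ne_zero g τ
  have h1 := hasDerivAt_PhiC m hf (g 0 0 * X + g 0 1 * Y) (g 1 0 * X + g 1 1 * Y) (g • τ)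
  rw [coe_smul_of_det_pos hg] at h1
  have h2 := HasDerivAt.comp (τ : ℂ) h1 (hasDerivAt_mob g hd)
  refine h2.congr_deriv ?_
  rw [slash_apply_of_det_pos k f hg, hk]
  have e1 : ((m : ℤ) + 2 - 1) = ((m + 1 : ℕ) : ℤ) := by push_cast; ring
  have e2 : (denom g τ) ^ (-((m : ℤ) + 2)) = ((denom g τ) ^ (m + 2))⁻¹ := by
    rw [zpow_neg]
    congr 1
  rw [e1, zpow_natCast, e2]
  have hX : ((g 0 0 : ℝ) : ℂ) * X + (g 0 1 : ℝ) * Y -
      num g τ / denom g τ * ((g 1 0 : ℝ) * X + (g 1 1 : ℝ) * Y) =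
      (g.det.val : ℂ) * (X - τ * Y) / denom g τ := by
    rw [det_eq_entries]
    field_simp
    simp only [num, denom]
    push_cast
    ring
  rw [hX, div_pow, mul_pow]
  field_simp
  ring

/-- **Transformation law**: `Φ_f(gτ)(g⋆v) - Φ_{f|g}(τ)(v)` does not depend on `τ`. -/
theorem Phi_transform_const (m : ℕ) (k : ℤ) (hk : k = m + 2) {f : ℍ → ℂ} (hf : Decay f)
    {g : GL (Fin 2) ℝ} (hg : 0 < g.det.val) (hfg : Decay (f ∣[k] g)) (X Y : ℂ) (τ τ' : ℍ) :
    Phi m f (g • τ) (g 0 0 * X + g 0 1 * Y) (g 1 0 * X + g 1 1 * Y) - Phi m (f ∣[k] g) τ X Y =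
    Phi m f (g • τ') (g 0 0 * X + g 0 1 * Y) (g 1 0 * X + g 1 1 * Y) -
      Phi m (f ∣[k] g) τ' X Y := by
  have key : ∀ z : ℂ, 0 < z.im → HasDerivAt (fun z : ℂ =>
      PhiC m f (g 0 0 * X + g 0 1 * Y) (g 1 0 * X + g 1 1 * Y) (num g z / denom g z) -
        PhiC m (f ∣[k] g) X Y z) 0 z := by
    intro z hz
    have h1 := hasDerivAt_PhiC_comp m k hk hf hg X Y ⟨z, hz⟩
    have h2 := hasDerivAt_PhiC m hfg X Y ⟨z, hz⟩
    have h3 := h1.sub h2
    refine h3.congr_deriv ?_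
    ring
  have h := eq_of_hasDerivAt_zero key τ.im_pos τ'.im_pos
  simp only [Phi, coe_smul_of_det_pos hg]
  exact h

/-! ### Decay along vertical lines -/

theorem tendsto_vertical (x₀ : ℝ) :
    Tendsto (fun t : ℝ => (x₀ : ℂ) + t * Complex.I) atTop (comap Complex.im atTop) := by
  rw [tendsto_comap_iff]
  have : (Complex.im ∘ fun t : ℝ => (x₀ : ℂ) + t * Complex.I) = id := by
    funext t
    simp
  rw [this]
  exact tendsto_id

theorem tendsto_pow_mul_exp_neg {b : ℝ} (hb : 0 < b) (n : ℕ) :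
    Tendsto (fun t : ℝ => t ^ n * Real.exp (-(b * t))) atTop (𝓝 0) := by
  have h := (isLittleO_pow_exp_pos_mul_atTop n hb).tendsto_div_nhds_zero
  refine h.congr fun t => ?_
  rw [Real.exp_neg, div_eq_mul_inv]

theorem tendsto_pow_mul_decay {h : ℝ} (hh : 0 < h) {G : ℍ → ℂ} (hG : DecayH h G) (X Y : ℂ)
    (x₀ : ℝ) (n : ℕ) :
    Tendsto (fun t : ℝ => (X - ((x₀ : ℂ) + t * Complex.I) * Y) ^ n * (G ∘ ofComplex) ((x₀ : ℂ) + t * Complex.I))
      atTop (𝓝 0) := by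
  have h1 : (G ∘ ofComplex) =O[comap Complex.im atTop] fun z => Real.exp (-2 * π * Complex.im z / h) :=
    Function.Periodic.exp_decay_of_zero_at_inf hh hG.decayC.per hG.decayC.eventually_diff
      hG.decayC.zero
  have h2 := h1.comp_tendsto (tendsto_vertical x₀)
  have h3 : (fun t : ℝ => X - ((x₀ : ℂ) + t * Complex.I) * Y) =O[atTop] fun t : ℝ => t := by
    refine Asymptotics.IsBigO.of_bound (‖X - x₀ * Y‖ + ‖Y‖) ?_
    filter_upwards [eventually_ge_atTop (1 : ℝ)] with t ht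
    have e : X - ((x₀ : ℂ) + t * Complex.I) * Y = (X - x₀ * Y) - t * Complex.I * Y := by ring
    rw [e]
    have ht0 : (0 : ℝ) ≤ t := by linarith
    calc ‖X - ↑x₀ * Y - ↑t * Complex.I * Y‖ ≤ ‖X - ↑x₀ * Y‖ + ‖(t : ℂ) * Complex.I * Y‖ := norm_sub_le _ _
      _ = ‖X - ↑x₀ * Y‖ + t * ‖Y‖ := by
        rw [norm_mul, norm_mul, Complex.norm_I, mul_one, Complex.norm_real, Real.norm_eq_abs,
          abs_of_nonneg ht0]
      _ ≤ ‖X - ↑x₀ * Y‖ * t + ‖Y‖ * t := by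
        have := mul_le_mul_of_nonneg_left ht (norm_nonneg (X - ↑x₀ * Y))
        nlinarith [norm_nonneg Y]
      _ = (‖X - ↑x₀ * Y‖ + ‖Y‖) * ‖t‖ := by
        rw [Real.norm_eq_abs, abs_of_nonneg ht0]; ring
  have h4 := (h3.pow n).mul h2
  have h5 : Tendsto (fun t : ℝ => t ^ n * Real.exp (-(2 * π / h * t))) atTop (𝓝 0) :=
    tendsto_pow_mul_exp_neg (by positivity) n
  refine Asymptotics.IsBigO.trans_tendsto ?_ h5
  refine h4.congr_right fun t => ?_
  simp only [Function.comp_apply, Complex.add_im, Complex.ofReal_im, Complex.mul_im,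
    Complex.ofReal_re, Complex.I_im, mul_one, Complex.I_re, mul_zero, add_zero, zero_add]
  congr 2
  ring

theorem tendsto_PhiC_vertical (m : ℕ) {f : ℍ → ℂ} (hf : Decay f) (X Y : ℂ) (x₀ : ℝ) :
    Tendsto (fun t : ℝ => PhiC m f X Y ((x₀ : ℂ) + t * Complex.I)) atTop (𝓝 0) := by
  obtain ⟨h, hh, hfh⟩ := hf
  unfold PhiC
  have : ∀ i ∈ Finset.range (m + 1), Tendsto (fun t : ℝ =>
      (m.descFactorial i : ℂ) * (X - ((x₀ : ℂ) + t * Complex.I) * Y) ^ (m - i) * Y ^ i *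
        (iprim (i + 1) f ∘ ofComplex) ((x₀ : ℂ) + t * Complex.I)) atTop (𝓝 0) := by
    intro i _
    have h1 := tendsto_pow_mul_decay (Nat.cast_pos.mpr hh) (hfh.iprim hh (i + 1)) X Y x₀ (m - i)
    have h2 := h1.const_mul ((m.descFactorial i : ℂ) * Y ^ i)
    rw [mul_zero] at h2
    refine h2.congr fun t => ?_
    ring
  have h := tendsto_finsetSum _ this
  simpa using h

/-- For upper triangular `g` of positive determinant the constant in the transformation law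
vanishes. -/
theorem Phi_slash_upper (m : ℕ) (k : ℤ) (hk : k = m + 2) {f : ℍ → ℂ} (hf : Decay f)
    {g : GL (Fin 2) ℝ} (hg : 0 < g.det.val) (hg10 : g 1 0 = 0) (hfg : Decay (f ∣[k] g))
    (X Y : ℂ) (τ : ℍ) :
    Phi m (f ∣[k] g) τ X Y =
      Phi m f (g • τ) (g 0 0 * X + g 0 1 * Y) (g 1 0 * X + g 1 1 * Y) := by
  have hdet : 0 < g 0 0 * g 1 1 := by
    have := hg
    rw [det_eq_entries, hg10] at this
    simpa using this
  have h11 : g 1 1 ≠ 0 := fun h => by simp [h] at hdet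
  have hr : 0 < g 0 0 / g 1 1 := by
    have : g 0 0 / g 1 1 = g 0 0 * g 1 1 / (g 1 1) ^ 2 := by
      field_simp
    rw [this]
    exact div_pos hdet (by positivity)
  -- the points `t i`
  have hpos : ∀ t : ℝ, 0 < t → 0 < ((0 : ℝ) + t * Complex.I : ℂ).im := by
    intro t ht; simpa using ht
  set D : ℂ := Phi m f (g • τ) (g 0 0 * X + g 0 1 * Y) (g 1 0 * X + g 1 1 * Y) -
    Phi m (f ∣[k] g) τ X Y with hD
  have hconst : ∀ t : ℝ, 0 < t →
      PhiC m f (g 0 0 * X + g 0 1 * Y) (g 1 0 * X + g 1 1 * Y)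
        (((g 0 1 / g 1 1 : ℝ) : ℂ) + ((g 0 0 / g 1 1 * t : ℝ) : ℂ) * Complex.I) -
      PhiC m (f ∣[k] g) X Y (((0 : ℝ) : ℂ) + t * Complex.I) = D := by
    intro t ht
    have h := Phi_transform_const m k hk hf hg hfg X Y ⟨((0 : ℝ) : ℂ) + t * Complex.I, hpos t ht⟩ τ
    rw [← hD] at h
    rw [← h]
    simp only [Phi]
    congr 2
    rw [coe_smul_of_det_pos hg]
    simp only [num, denom, hg10]
    push_cast
    field_simp
    ring
  have hlim1 : Tendsto (fun t : ℝ => PhiC m f (g 0 0 * X + g 0 1 * Y) (g 1 0 * X + g 1 1 * Y)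
        (((g 0 1 / g 1 1 : ℝ) : ℂ) + ((g 0 0 / g 1 1 * t : ℝ) : ℂ) * Complex.I)) atTop (𝓝 0) := by
    have h1 := tendsto_PhiC_vertical m hf (g 0 0 * X + g 0 1 * Y) (g 1 0 * X + g 1 1 * Y)
      (g 0 1 / g 1 1)
    have h2 : Tendsto (fun t : ℝ => g 0 0 / g 1 1 * t) atTop atTop :=
      tendsto_id.const_mul_atTop hr
    exact h1.comp h2
  have hlim2 := tendsto_PhiC_vertical m hfg X Y 0
  have hlim := hlim1.sub hlim2
  rw [sub_zero] at hlim
  have hev : (fun t : ℝ => PhiC m f (g 0 0 * X + g 0 1 * Y) (g 1 0 * X + g 1 1 * Y)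
        (((g 0 1 / g 1 1 : ℝ) : ℂ) + ((g 0 0 / g 1 1 * t : ℝ) : ℂ) * Complex.I) -
      PhiC m (f ∣[k] g) X Y (((0 : ℝ) : ℂ) + t * Complex.I)) =ᶠ[atTop] fun _ => D := by
    filter_upwards [eventually_gt_atTop (0 : ℝ)] with t ht
    exact hconst t ht
  have hD0 : D = 0 := tendsto_nhds_unique (tendsto_const_nhds.congr' hev.symm) hlim
  rw [hD] at hD0
  exact (sub_eq_zero.mp hD0).symm

end Fermat.Agent.S22.Sep

end
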