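import Fermat.Agent.S22.Defs
import Fermat.Agent.S22.Trivial
import Fermat.Agent.S22.SepPhi
import Fermat.Prelude.Thm_Subgroup_IsArithmetic_exists_nat_mem_strictPeriods_conj

/-!
# S22, separation: cusp forms and their `SL(2,ℤ)`-translates lie in the class `𝒟`;
the Eichler integral is a cusp form of weight `-m`.
-/

set_option autoImplicit false

noncomputable section

namespace Fermat.Agent.S22.Sep

open Complex Filter Function UpperHalfPlane Matrix.SpecialLinearGroup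
open scoped Topology Real ModularForm MatrixGroups Pointwise

variable {N : ℕ} [NeZero N] {k : ℤ}

/-- Translates of cusp forms by `SL(2,ℤ)` are in the class `𝒟`. -/
theorem decay_slash (f : CuspForm (CongruenceSubgroup.Gamma0 N) k) (δ : SL(2, ℤ)) :
    Decay (⇑f ∣[k] δ) := by
  obtain ⟨M, hM, hper⟩ := Subgroup.IsArithmetic.exists_nat_mem_strictPeriods_conj
    (CongruenceSubgroup.Gamma0 N : Subgroup (GL (Fin 2) ℝ))
  refine ⟨M, hM, ⟨?_, ?_, ?_⟩⟩
  · exact (CuspFormClass.holo f).slash k (mapGL ℝ δ)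
  · have h := hper δ⁻¹
    rw [map_inv] at h
    exact SlashInvariantFormClass.periodic_comp_ofComplex (CuspForm.translate f (mapGL ℝ δ)) h
  · exact CuspFormClass.zero_at_infty_slash f δ

theorem decay_cuspForm (f : CuspForm (CongruenceSubgroup.Gamma0 N) k) : Decay (⇑f) := by
  have := decay_slash f 1
  simpa using this

/-! ### Comparison of the given primitives `F j` with `Φ` -/

theorem tendsto_of_stripDecay {h : ℂ → ℂ} (hh : StripDecay h) :
    Tendsto (fun t : ℝ => h (((0 : ℝ) : ℂ) + t * Complex.I)) atTop (𝓝 0) := by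
  obtain ⟨C, c, A, hc, hb⟩ := hh 0
  have h1 : Tendsto (fun t : ℝ => C * Real.exp (-(c * t))) atTop (𝓝 0) := by
    have := (Real.tendsto_exp_neg_atTop_nhds_zero.comp
      (tendsto_id.const_mul_atTop hc)).const_mul C
    simpa using this
  refine squeeze_zero_norm' ?_ h1
  filter_upwards [eventually_ge_atTop A] with t ht
  have := hb (((0 : ℝ) : ℂ) + t * Complex.I) (by simp) (by simpa using ht)
  simpa using this

theorem psi_eq_Phi (m : ℕ) {f₀ : ℍ → ℂ} (hf : Decay f₀) (F : ℕ → ℂ → ℂ)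
    (hF : ∀ j ≤ m, _root_.Fermat.Agent.S22.IsPrim (F j) (fun z => f₀ (ofComplex z) * z ^ j))
    (hL : ∀ j ≤ m, Tendsto (fun t : ℝ => F j (((0 : ℝ) : ℂ) + t * Complex.I)) atTop (𝓝 0))
    (X Y : ℂ) (τ : ℍ) :
    ∑ j ∈ Finset.range (m + 1), (m.choose j : ℂ) * X ^ (m - j) * (-Y) ^ j * F j τ =
      Phi m f₀ τ X Y := by
  set Ψ : ℂ → ℂ := fun z => ∑ j ∈ Finset.range (m + 1),
    (m.choose j : ℂ) * X ^ (m - j) * (-Y) ^ j * F j z with hΨ
  have hder : ∀ z : ℂ, 0 < z.im → HasDerivAt (fun z => Ψ z - PhiC m f₀ X Y z) 0 z := by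
    intro z hz
    have h1 : HasDerivAt Ψ (∑ j ∈ Finset.range (m + 1),
        (m.choose j : ℂ) * X ^ (m - j) * (-Y) ^ j * (f₀ (ofComplex z) * z ^ j)) z := by
      refine HasDerivAt.fun_sum fun j hj => ?_
      have hj' : j ≤ m := Nat.lt_succ_iff.mp (Finset.mem_range.mp hj)
      exact (hF j hj' z hz).const_mul _
    have h2 := hasDerivAt_PhiC m hf X Y ⟨z, hz⟩
    have h3 := h1.sub h2
    refine h3.congr_deriv ?_
    have e : (X - z * Y) ^ m = ((-Y) * z + X) ^ m := by ring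
    rw [e, add_pow, Finset.mul_sum, ← Finset.sum_sub_distrib]
    refine Finset.sum_eq_zero fun j _ => ?_
    have : ofComplex z = ⟨z, hz⟩ := ofComplex_apply_of_im_pos hz
    rw [this, mul_pow]
    ring
  have hconst : ∀ t : ℝ, 0 < t →
      Ψ (((0 : ℝ) : ℂ) + t * Complex.I) - PhiC m f₀ X Y (((0 : ℝ) : ℂ) + t * Complex.I) =
        Ψ τ - PhiC m f₀ X Y τ := by
    intro t ht
    exact eq_of_hasDerivAt_zero hder (by simpa using ht) τ.im_pos
  have hlim1 : Tendsto (fun t : ℝ => Ψ (((0 : ℝ) : ℂ) + t * Complex.I)) atTop (𝓝 0) := by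
    have : ∀ j ∈ Finset.range (m + 1), Tendsto (fun t : ℝ =>
        (m.choose j : ℂ) * X ^ (m - j) * (-Y) ^ j * F j (((0 : ℝ) : ℂ) + t * Complex.I))
        atTop (𝓝 0) := by
      intro j hj
      have hj' : j ≤ m := Nat.lt_succ_iff.mp (Finset.mem_range.mp hj)
      have := (hL j hj').const_mul ((m.choose j : ℂ) * X ^ (m - j) * (-Y) ^ j)
      simpa using this
    have h := tendsto_finsetSum _ this
    simpa [hΨ] using h
  have hlim := hlim1.sub (tendsto_PhiC_vertical m hf X Y 0)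
  rw [sub_zero] at hlim
  have hev : (fun t : ℝ => Ψ (((0 : ℝ) : ℂ) + t * Complex.I) -
      PhiC m f₀ X Y (((0 : ℝ) : ℂ) + t * Complex.I)) =ᶠ[atTop]
      fun _ => Ψ τ - PhiC m f₀ X Y τ := by
    filter_upwards [eventually_gt_atTop (0 : ℝ)] with t ht
    exact hconst t ht
  have h0 : Ψ τ - PhiC m f₀ X Y τ = 0 :=
    tendsto_nhds_unique (tendsto_const_nhds.congr' hev.symm) hlim
  exact sub_eq_zero.mp h0

/-! ### The transformation law for `SL(2,ℤ)` under vanishing of all cusp values -/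

theorem mapGL_apply (δ : SL(2, ℤ)) (i j : Fin 2) :
    ((mapGL ℝ δ : GL (Fin 2) ℝ) : Matrix (Fin 2) (Fin 2) ℝ) i j = ((δ i j : ℤ) : ℝ) := by
  rw [mapGL_coe_matrix]
  simp

theorem det_mapGL_pos (δ : SL(2, ℤ)) : 0 < (mapGL ℝ δ : GL (Fin 2) ℝ).det.val := by
  rw [det_mapGL]
  simp

/-- Data: a cusp form such that `Φ_f` tends to zero at every cusp. -/
structure SepData (N : ℕ) [NeZero N] (m : ℕ) where
  f : CuspForm (CongruenceSubgroup.Gamma0 N) ((m : ℤ) + 2)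
  hC : ∀ (δ : SL(2, ℤ)) (X Y : ℂ),
    Tendsto (fun t : ℝ => Phi m (⇑f) (δ • ofComplex (((0 : ℝ) : ℂ) + t * Complex.I)) X Y)
      atTop (𝓝 0)

theorem mob_one {z : ℂ} (hz : 0 < z.im) : mob 1 z = z := by
  simp [mob, ofComplex_apply_of_im_pos hz]

/-- Construction of `SepData` from primitives `F j` of `f z^j` all of whose cusp values
vanish. -/
def SepData.ofPrim {N : ℕ} [NeZero N] {m : ℕ}
    (f : CuspForm (CongruenceSubgroup.Gamma0 N) ((m : ℤ) + 2)) (F : ℕ → ℂ → ℂ)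
    (hF : ∀ j ≤ m, _root_.Fermat.Agent.S22.IsPrim (F j) (fun z => f (ofComplex z) * z ^ j))
    (hL : ∀ j ≤ m, ∀ g : SL(2, ℤ), CuspVal (F j) g 0) : SepData N m where
  f := f
  hC := by
    intro δ X Y
    have tendsto_F : ∀ j ≤ m, ∀ δ : SL(2, ℤ),
        Tendsto (fun t : ℝ => F j (mob δ (((0 : ℝ) : ℂ) + t * Complex.I))) atTop (𝓝 0) := by
      intro j hj δ
      have := tendsto_of_stripDecay (hL j hj δ)
      simpa using this
    have tendsto_F_one : ∀ j ≤ m,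
        Tendsto (fun t : ℝ => F j (((0 : ℝ) : ℂ) + t * Complex.I)) atTop (𝓝 0) := by
      intro j hj
      refine (tendsto_F j hj 1).congr' ?_
      filter_upwards [eventually_gt_atTop (0 : ℝ)] with t ht
      rw [mob_one (by simpa using ht)]
    have psi_eq : ∀ (X Y : ℂ) (τ : ℍ),
        ∑ j ∈ Finset.range (m + 1), (m.choose j : ℂ) * X ^ (m - j) * (-Y) ^ j * F j τ =
          Phi m (⇑f) τ X Y :=
      fun X Y τ => psi_eq_Phi m (decay_cuspForm f) F hF tendsto_F_one X Y τ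
    have : ∀ j ∈ Finset.range (m + 1), Tendsto (fun t : ℝ =>
        (m.choose j : ℂ) * X ^ (m - j) * (-Y) ^ j *
          F j (mob δ (((0 : ℝ) : ℂ) + t * Complex.I))) atTop (𝓝 0) := by
      intro j hj
      have hj' : j ≤ m := Nat.lt_succ_iff.mp (Finset.mem_range.mp hj)
      have := (tendsto_F j hj' δ).const_mul ((m.choose j : ℂ) * X ^ (m - j) * (-Y) ^ j)
      simpa using this
    have h := tendsto_finsetSum _ this
    rw [Finset.sum_const_zero] at h
    refine h.congr fun t => ?_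
    rw [← psi_eq]
    rfl

variable {m : ℕ} (d : SepData N m)

theorem SepData.tendsto_Phi_cusp (δ : SL(2, ℤ)) (X Y : ℂ) :
    Tendsto (fun t : ℝ => Phi m (⇑d.f) (δ • ofComplex (((0 : ℝ) : ℂ) + t * Complex.I)) X Y)
      atTop (𝓝 0) := d.hC δ X Y

/-- Under vanishing of all cusp values the constant in the transformation law vanishes for
every `δ ∈ SL(2,ℤ)`. -/
theorem SepData.Phi_slash (δ : SL(2, ℤ)) (X Y : ℂ) (τ : ℍ) :
    Phi m (⇑d.f ∣[(m : ℤ) + 2] δ) τ X Y =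
      Phi m (⇑d.f) (δ • τ) ((δ 0 0 : ℤ) * X + (δ 0 1 : ℤ) * Y)
        ((δ 1 0 : ℤ) * X + (δ 1 1 : ℤ) * Y) := by
  have hf := decay_cuspForm d.f
  have hfg := decay_slash d.f δ
  have hg := det_mapGL_pos δ
  set X' : ℂ := (δ 0 0 : ℤ) * X + (δ 0 1 : ℤ) * Y with hX'
  set Y' : ℂ := (δ 1 0 : ℤ) * X + (δ 1 1 : ℤ) * Y with hY'
  have hentries : (((mapGL ℝ δ : GL (Fin 2) ℝ) : Matrix (Fin 2) (Fin 2) ℝ) 0 0 : ℂ) * X +
      (((mapGL ℝ δ : GL (Fin 2) ℝ) : Matrix (Fin 2) (Fin 2) ℝ) 0 1 : ℂ) * Y = X' ∧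
      (((mapGL ℝ δ : GL (Fin 2) ℝ) : Matrix (Fin 2) (Fin 2) ℝ) 1 0 : ℂ) * X +
      (((mapGL ℝ δ : GL (Fin 2) ℝ) : Matrix (Fin 2) (Fin 2) ℝ) 1 1 : ℂ) * Y = Y' := by
    simp only [mapGL_apply, hX', hY']
    push_cast
    exact ⟨rfl, rfl⟩
  have hT := fun τ τ' => Phi_transform_const m ((m : ℤ) + 2) rfl hf hg hfg X Y τ τ'
  rw [hentries.1, hentries.2] at hT
  set D : ℂ := Phi m (⇑d.f) (δ • τ) X' Y' - Phi m (⇑d.f ∣[(m : ℤ) + 2] δ) τ X Y with hD
  have hlim1 := d.tendsto_Phi_cusp δ X' Y'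
  have hlim2 := tendsto_PhiC_vertical m hfg X Y 0
  have hlim := hlim1.sub hlim2
  rw [sub_zero] at hlim
  have hev : (fun t : ℝ => Phi m (⇑d.f) (δ • ofComplex (((0 : ℝ) : ℂ) + t * Complex.I)) X' Y' -
      PhiC m (⇑d.f ∣[(m : ℤ) + 2] δ) X Y (((0 : ℝ) : ℂ) + t * Complex.I)) =ᶠ[atTop]
      fun _ => D := by
    filter_upwards [eventually_gt_atTop (0 : ℝ)] with t ht
    have hpos : 0 < (((0 : ℝ) : ℂ) + t * Complex.I).im := by simpa using ht
    have h : Phi m (⇑d.f) (δ • (⟨_, hpos⟩ : ℍ)) X' Y' -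
        Phi m (⇑d.f ∣[(m : ℤ) + 2] δ) (⟨_, hpos⟩ : ℍ) X Y = D := hT ⟨_, hpos⟩ τ
    rw [ofComplex_apply_of_im_pos hpos]
    exact h
  have hD0 : D = 0 := tendsto_nhds_unique (tendsto_const_nhds.congr' hev.symm) hlim
  rw [hD] at hD0
  exact (sub_eq_zero.mp hD0).symm

end Fermat.Agent.S22.Sep

end
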