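import Fermat.Agent.S22.SepCusp

/-!
# S22: cusp values of the polynomial-valued primitive (periods)

`cval m f g X Y = lim_{t → ∞} Φ_f(g · it)(X, Y)` for `g ∈ SL(2,ℤ)`.
-/

set_option autoImplicit false

noncomputable section

namespace Fermat.Agent.S22.Sep

open Complex Filter Function UpperHalfPlane Matrix.SpecialLinearGroup
open scoped Topology Real ModularForm MatrixGroups Pointwise

/-- First coordinate of `g⁻¹ ⋆ (X, Y)`. -/
def invX (g : SL(2, ℤ)) (X Y : ℂ) : ℂ := (g 1 1 : ℤ) * X - (g 0 1 : ℤ) * Y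

/-- Second coordinate of `g⁻¹ ⋆ (X, Y)`. -/
def invY (g : SL(2, ℤ)) (X Y : ℂ) : ℂ := -((g 1 0 : ℤ) : ℂ) * X + (g 0 0 : ℤ) * Y

/-- First coordinate of `g ⋆ (X, Y)`. -/
def actX (g : SL(2, ℤ)) (X Y : ℂ) : ℂ := (g 0 0 : ℤ) * X + (g 0 1 : ℤ) * Y

/-- Second coordinate of `g ⋆ (X, Y)`. -/
def actY (g : SL(2, ℤ)) (X Y : ℂ) : ℂ := (g 1 0 : ℤ) * X + (g 1 1 : ℤ) * Y

theorem det_eq_one_cast (g : SL(2, ℤ)) :
    ((g 0 0 : ℤ) : ℂ) * (g 1 1 : ℤ) - (g 0 1 : ℤ) * (g 1 0 : ℤ) = 1 := by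
  have h := g.det_coe
  rw [Matrix.det_fin_two] at h
  exact_mod_cast h

theorem actX_inv (g : SL(2, ℤ)) (X Y : ℂ) : actX g (invX g X Y) (invY g X Y) = X := by
  have h := det_eq_one_cast g
  simp only [actX, invX, invY]
  linear_combination X * h

theorem actY_inv (g : SL(2, ℤ)) (X Y : ℂ) : actY g (invX g X Y) (invY g X Y) = Y := by
  have h := det_eq_one_cast g
  simp only [actY, invX, invY]
  linear_combination Y * h

theorem invX_act (g : SL(2, ℤ)) (X Y : ℂ) : invX g (actX g X Y) (actY g X Y) = X := by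
  have h := det_eq_one_cast g
  simp only [actX, actY, invX]
  linear_combination X * h

theorem invY_act (g : SL(2, ℤ)) (X Y : ℂ) : invY g (actX g X Y) (actY g X Y) = Y := by
  have h := det_eq_one_cast g
  simp only [actX, actY, invY]
  linear_combination Y * h

/-- The cusp value of `Φ_f(·)(X, Y)` at the cusp `g∞`. -/
def cval (m : ℕ) (f : ℍ → ℂ) (g : SL(2, ℤ)) (X Y : ℂ) : ℂ :=
  Phi m f (g • UpperHalfPlane.I) X Y -
    Phi m (f ∣[(m : ℤ) + 2] g) UpperHalfPlane.I (invX g X Y) (invY g X Y)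

/-- The transformation law for `g ∈ SL(2,ℤ)` in terms of `actX`, `actY`. -/
theorem Phi_transform_SL (m : ℕ) {f : ℍ → ℂ} (hf : Decay f) (g : SL(2, ℤ))
    (hfg : Decay (f ∣[(m : ℤ) + 2] g)) (X Y : ℂ) (τ τ' : ℍ) :
    Phi m f (g • τ) (actX g X Y) (actY g X Y) - Phi m (f ∣[(m : ℤ) + 2] g) τ X Y =
    Phi m f (g • τ') (actX g X Y) (actY g X Y) - Phi m (f ∣[(m : ℤ) + 2] g) τ' X Y := by
  have hT := Phi_transform_const m ((m : ℤ) + 2) rfl hf (det_mapGL_pos g) hfg X Y τ τ'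
  have e1 : (((mapGL ℝ g : GL (Fin 2) ℝ) : Matrix (Fin 2) (Fin 2) ℝ) 0 0 : ℂ) * X +
      (((mapGL ℝ g : GL (Fin 2) ℝ) : Matrix (Fin 2) (Fin 2) ℝ) 0 1 : ℂ) * Y = actX g X Y := by
    simp only [mapGL_apply, actX]
    push_cast
    rfl
  have e2 : (((mapGL ℝ g : GL (Fin 2) ℝ) : Matrix (Fin 2) (Fin 2) ℝ) 1 0 : ℂ) * X +
      (((mapGL ℝ g : GL (Fin 2) ℝ) : Matrix (Fin 2) (Fin 2) ℝ) 1 1 : ℂ) * Y = actY g X Y := by
    simp only [mapGL_apply, actY]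
    push_cast
    rfl
  rw [e1, e2] at hT
  exact hT

theorem Phi_eq_cval (m : ℕ) {f : ℍ → ℂ} (hf : Decay f) (g : SL(2, ℤ))
    (hfg : Decay (f ∣[(m : ℤ) + 2] g)) (X Y : ℂ) (τ : ℍ) :
    Phi m f (g • τ) X Y =
      Phi m (f ∣[(m : ℤ) + 2] g) τ (invX g X Y) (invY g X Y) + cval m f g X Y := by
  have h := Phi_transform_SL m hf g hfg (invX g X Y) (invY g X Y) τ UpperHalfPlane.I
  rw [actX_inv, actY_inv] at h
  unfold cval
  linear_combination h

/-- The cusp value is the limit of `Φ_f(g · it)(X, Y)`. -/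
theorem tendsto_cval (m : ℕ) {f : ℍ → ℂ} (hf : Decay f) (g : SL(2, ℤ))
    (hfg : Decay (f ∣[(m : ℤ) + 2] g)) (X Y : ℂ) :
    Tendsto (fun t : ℝ => Phi m f (g • ofComplex (((0 : ℝ) : ℂ) + t * Complex.I)) X Y) atTop
      (𝓝 (cval m f g X Y)) := by
  have h1 := tendsto_PhiC_vertical m hfg (invX g X Y) (invY g X Y) 0
  have h2 := h1.add_const (cval m f g X Y)
  rw [zero_add] at h2
  refine h2.congr' ?_
  filter_upwards [eventually_gt_atTop (0 : ℝ)] with t ht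
  have hpos : 0 < (((0 : ℝ) : ℂ) + t * Complex.I).im := by simpa using ht
  rw [Phi_eq_cval m hf g hfg, ofComplex_apply_of_im_pos hpos]
  rfl

/-- Cusp values are unique limits: a characterisation. -/
theorem cval_eq_of_tendsto (m : ℕ) {f : ℍ → ℂ} (hf : Decay f) (g : SL(2, ℤ))
    (hfg : Decay (f ∣[(m : ℤ) + 2] g)) (X Y : ℂ) {L : ℂ}
    (hL : Tendsto (fun t : ℝ => Phi m f (g • ofComplex (((0 : ℝ) : ℂ) + t * Complex.I)) X Y)
      atTop (𝓝 L)) : cval m f g X Y = L :=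
  tendsto_nhds_unique (tendsto_cval m hf g hfg X Y) hL

/-! ### Period functionals on cusp forms -/

variable {N : ℕ} [NeZero N] {m : ℕ}

theorem cval_add (m : ℕ) {f₁ f₂ : ℍ → ℂ} (g : SL(2, ℤ)) (h₁ : Decay f₁) (h₂ : Decay f₂)
    (h₁' : Decay (f₁ ∣[(m : ℤ) + 2] g)) (h₂' : Decay (f₂ ∣[(m : ℤ) + 2] g)) (X Y : ℂ) :
    cval m (f₁ + f₂) g X Y = cval m f₁ g X Y + cval m f₂ g X Y := by
  unfold cval
  rw [SlashAction.add_slash, Phi_add m h₁ h₂, Phi_add m h₁' h₂']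
  ring

theorem cval_smul (m : ℕ) {f : ℍ → ℂ} (g : SL(2, ℤ)) (h : Decay f)
    (h' : Decay (f ∣[(m : ℤ) + 2] g)) (c : ℂ) (X Y : ℂ) :
    cval m (c • f) g X Y = c * cval m f g X Y := by
  unfold cval
  rw [ModularForm.SL_smul_slash, Phi_smul m h, Phi_smul m h']
  ring

/-- The period functional `f ↦ lim_{t → ∞} Φ_f(g · it)(X, Y)`. -/
def per (N : ℕ) [NeZero N] (m : ℕ) (g : SL(2, ℤ)) (X Y : ℂ) :
    CuspForm (CongruenceSubgroup.Gamma0 N) ((m : ℤ) + 2) →ₗ[ℂ] ℂ where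
  toFun f := cval m (⇑f) g X Y
  map_add' f₁ f₂ := by
    rw [CuspForm.coe_add]
    exact cval_add m g (decay_cuspForm f₁) (decay_cuspForm f₂) (decay_slash f₁ g)
      (decay_slash f₂ g) X Y
  map_smul' c f := by
    rw [CuspForm.IsGLPos.coe_smul]
    exact cval_smul m g (decay_cuspForm f) (decay_slash f g) c X Y

@[simp] theorem per_apply (g : SL(2, ℤ)) (X Y : ℂ)
    (f : CuspForm (CongruenceSubgroup.Gamma0 N) ((m : ℤ) + 2)) :
    per N m g X Y f = cval m (⇑f) g X Y := rfl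

theorem slash_eq_self (f : CuspForm (CongruenceSubgroup.Gamma0 N) ((m : ℤ) + 2))
    {γ : SL(2, ℤ)} (hγ : γ ∈ CongruenceSubgroup.Gamma0 N) :
    ⇑f ∣[(m : ℤ) + 2] γ = ⇑f :=
  SlashInvariantFormClass.slash_action_eq f (mapGL ℝ γ) ⟨γ, hγ, rfl⟩

/-- Cocycle relation. -/
theorem cval_mul (f : CuspForm (CongruenceSubgroup.Gamma0 N) ((m : ℤ) + 2))
    {γ : SL(2, ℤ)} (hγ : γ ∈ CongruenceSubgroup.Gamma0 N) (g : SL(2, ℤ)) (X Y : ℂ) :
    cval m (⇑f) (γ * g) X Y =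
      cval m (⇑f) g (invX γ X Y) (invY γ X Y) + cval m (⇑f) γ X Y := by
  have hf := decay_cuspForm f
  refine cval_eq_of_tendsto m hf (γ * g) (decay_slash f _) X Y ?_
  have h1 := (tendsto_cval m hf g (decay_slash f g) (invX γ X Y) (invY γ X Y)).add_const
    (cval m (⇑f) γ X Y)
  refine h1.congr fun t => ?_
  rw [mul_smul, Phi_eq_cval m hf γ (decay_slash f γ) X Y, slash_eq_self f hγ]

theorem per_mul {γ : SL(2, ℤ)} (hγ : γ ∈ CongruenceSubgroup.Gamma0 N) (g : SL(2, ℤ)) (X Y : ℂ) :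
    per N m (γ * g) X Y = per N m g (invX γ X Y) (invY γ X Y) + per N m γ X Y :=
  LinearMap.ext fun f => cval_mul f hγ g X Y

theorem cval_one (m : ℕ) (f : ℍ → ℂ) (X Y : ℂ) : cval m f 1 X Y = 0 := by
  unfold cval
  have e1 : invX 1 X Y = X := by simp [invX]
  have e2 : invY 1 X Y = Y := by simp [invY]
  rw [e1, e2]
  simp

theorem per_one (X Y : ℂ) : per N m 1 X Y = 0 :=
  LinearMap.ext fun f => cval_one m _ X Y

theorem per_inv {γ : SL(2, ℤ)} (hγ : γ ∈ CongruenceSubgroup.Gamma0 N) (X Y : ℂ) :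
    per N m γ⁻¹ X Y = -per N m γ (actX γ X Y) (actY γ X Y) := by
  have h := per_mul (N := N) (m := m) hγ γ⁻¹ (actX γ X Y) (actY γ X Y)
  rw [mul_inv_cancel, per_one, invX_act, invY_act] at h
  exact eq_neg_of_add_eq_zero_left h.symm

end Fermat.Agent.S22.Sep

end
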